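import Fermat.Agent.S15.Abs.V.Defs

/-!
# S15 ABS-V, file `Inst`: the hypotheses of the dictionary for the TYPE `T = J[l^∞]`
-/

set_option autoImplicit false

noncomputable section

namespace Fermat.Agent.S15.V

open Fermat.Agent.S15

variable {J : Type} [AddCommGroup J] {l : ℕ} [Fact l.Prime]

omit [Fact l.Prime] in
theorem inst_fin (T : AddSubgroup J) (hfin : {x : J | l • x = 0}.Finite) :
    {x : T | l • x = 0}.Finite := by
  refine Set.Finite.of_finite_image (f := fun x : T => (x : J)) (hfin.subset ?_)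
    (Subtype.val_injective.injOn)
  rintro _ ⟨x, hx, rfl⟩
  have : ((l • x : T) : J) = 0 := by rw [show l • x = 0 from hx]; rfl
  simpa using this

omit [Fact l.Prime] in
theorem inst_div (T : AddSubgroup J) (hT : ∀ x, x ∈ T ↔ ∃ r : ℕ, l ^ r • x = 0)
    (hdiv : ∀ x : J, ∃ z : J, l • z = x) (x : T) : ∃ z : T, l • z = x := by
  obtain ⟨z, hz⟩ := hdiv x
  obtain ⟨r, hr⟩ := (hT x).1 x.2
  refine ⟨⟨z, (hT z).2 ⟨r + 1, ?_⟩⟩, Subtype.ext hz⟩
  rw [pow_succ, mul_smul, hz, hr]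

omit [Fact l.Prime] in
theorem inst_torInf (T : AddSubgroup J) (hT : ∀ x, x ∈ T ↔ ∃ r : ℕ, l ^ r • x = 0) :
    torInf T l = ⊤ := by
  rw [eq_top_iff]
  intro x _
  obtain ⟨r, hr⟩ := (hT x).1 x.2
  exact ⟨r, Subtype.ext (by simpa using hr)⟩

end Fermat.Agent.S15.V
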