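import Fermat.Agent.S15.Abs.V.Card

/-!
# S15 ABS-V, file `Quot`: (V6) `0 → V(K) → V(J) → V(J/K) → 0` for a divisible subgroup `K`
-/

set_option autoImplicit false

noncomputable section

namespace Fermat.Agent.S15.V

open Fermat.Agent.S15

variable {J : Type} [AddCommGroup J] {l : ℕ} [Fact l.Prime]

theorem ker_map_mk (K : AddSubgroup J) :
    LinearMap.ker (map l (QuotientAddGroup.mk' K)) = sub l K := by
  ext f
  rw [LinearMap.mem_ker, mem_sub]
  constructor
  · intro h x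
    have h1 : map l (QuotientAddGroup.mk' K) f x = 0 := by rw [h]; rfl
    rw [map_apply] at h1
    exact (QuotientAddGroup.eq_zero_iff _).1 h1
  · intro h
    ext x
    rw [map_apply, zero_apply]
    exact (QuotientAddGroup.eq_zero_iff _).2 (h x)

/-- one step of the recursion: a lift `x` of `g (π^r)⁻¹` is `l` times a lift of `g (π^(r+1))⁻¹`. -/
theorem Quot_step (K : AddSubgroup J) (hK : ∀ x ∈ K, ∃ z ∈ K, l • z = x) (g : VV (J ⧸ K) l)
    (r : ℕ) (x : J) (hx : QuotientAddGroup.mk' K x = g (((l : ℚ_[l]) ^ r)⁻¹)) :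
    ∃ x' : J, QuotientAddGroup.mk' K x' = g (((l : ℚ_[l]) ^ (r + 1))⁻¹) ∧ l • x' = x := by
  obtain ⟨y, hy⟩ := QuotientAddGroup.mk'_surjective K (g (((l : ℚ_[l]) ^ (r + 1))⁻¹))
  have h1 : l • y - x ∈ K := by
    rw [← QuotientAddGroup.eq_zero_iff]
    have : QuotientAddGroup.mk' K (l • y - x) = 0 := by
      rw [map_sub, map_nsmul, hy, hx, nsmul_apply_inv_pow_succ, sub_self]
    exact this
  obtain ⟨κ, hκ, hκ'⟩ := hK _ h1
  refine ⟨y - κ, ?_, ?_⟩
  · rw [map_sub, hy]
    have : QuotientAddGroup.mk' K κ = 0 := (QuotientAddGroup.eq_zero_iff _).2 hκ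
    rw [this, sub_zero]
  · rw [smul_sub, hκ']
    abel

/-- [`f'' ∈ VV (J ⧸ K) l`.  `x 0 ∈ torInf J l` a lift of `f'' 1` (`exists_torInf_lift`).  Recursively: `y` any
lift of `f'' (π^(r+1))⁻¹`; `l • y - x r ∈ K`, `= l • κ`, `x (r+1) := y - κ`.  `exists_of_seq`,
`ext_of_inv_pow`.] -/
theorem map_mk_surjective (K : AddSubgroup J) (hK : ∀ x ∈ K, ∃ z ∈ K, l • z = x) :
    Function.Surjective (map l (QuotientAddGroup.mk' K)) := by
  intro g
  obtain ⟨x0, hx0, hx0'⟩ := exists_torInf_lift K hK (g 1) (apply_mem_torInf g 1)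
  have hx00 : QuotientAddGroup.mk' K x0 = g (((l : ℚ_[l]) ^ 0)⁻¹) := by
    rw [hx0', pow_zero, inv_one]
  choose! nxt hnxt1 hnxt2 using Quot_step K hK g
  -- the sequence, with its invariant
  let X : (r : ℕ) → {x : J // QuotientAddGroup.mk' K x = g (((l : ℚ_[l]) ^ r)⁻¹)} :=
    fun r => Nat.rec (motive := fun r =>
        {x : J // QuotientAddGroup.mk' K x = g (((l : ℚ_[l]) ^ r)⁻¹)}) ⟨x0, hx00⟩
      (fun r x => ⟨nxt r x.1, hnxt1 r x.1 x.2⟩) r
  have hX0 : (X 0).1 = x0 := rfl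
  have hXs : ∀ r, (X (r + 1)).1 = nxt r (X r).1 := fun r => rfl
  obtain ⟨f, hf⟩ := exists_of_seq (l := l) (fun r => (X r).1)
    (fun r => by
      show l • (X (r + 1)).1 = (X r).1
      rw [hXs]
      exact hnxt2 r _ (X r).2)
    (by
      show (X 0).1 ∈ torInf J l
      rw [hX0]
      exact hx0)
  refine ⟨f, ext_of_inv_pow fun r => ?_⟩
  rw [map_apply, hf r]
  exact (X r).2

/-- [`≥` clear.  `≤`: lift `f''` to `f` (`map_mk_surjective`); `mk (f x) ∈ M.map mk` and `K ≤ M` give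
`f x ∈ M`.] -/
theorem sub_map_mk (K M : AddSubgroup J) (hKM : K ≤ M) (hK : ∀ x ∈ K, ∃ z ∈ K, l • z = x) :
    sub l (M.map (QuotientAddGroup.mk' K)) = (sub l M).map (map l (QuotientAddGroup.mk' K)) := by
  apply le_antisymm
  · intro g hg
    obtain ⟨f, rfl⟩ := map_mk_surjective K hK g
    refine ⟨f, ?_, rfl⟩
    intro x
    obtain ⟨m, hm, hm'⟩ := hg x
    rw [map_apply] at hm'
    have h1 : f x - m ∈ K := by
      rw [← QuotientAddGroup.eq_zero_iff]
      have : QuotientAddGroup.mk' K (f x - m) = 0 := by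
        rw [map_sub, hm', sub_self]
      exact this
    have h2 : f x = (f x - m) + m := by abel
    rw [h2]
    exact M.add_mem (hKM h1) hm
  · rintro _ ⟨f, hf, rfl⟩ x
    rw [map_apply]
    exact ⟨f x, hf x, rfl⟩

/-- [rank-nullity for the restriction of `map l mk` to `sub l M`:
`LinearMap.finrank_range_add_finrank_ker`, `sub_map_mk`, `ker_map_mk`, `sub_mono hKM`.] -/
theorem finrank_sub_map_mk (hfin : {x : J | l • x = 0}.Finite) (K M : AddSubgroup J) (hKM : K ≤ M)
    (hK : ∀ x ∈ K, ∃ z ∈ K, l • z = x) :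
    Module.finrank ℚ_[l] (sub l (M.map (QuotientAddGroup.mk' K))) +
      Module.finrank ℚ_[l] (sub l K) = Module.finrank ℚ_[l] (sub l M) := by
  have hfd : FiniteDimensional ℚ_[l] (VV J l) := finiteDimensional hfin
  have h := LinearMap.finrank_range_add_finrank_ker
    ((map l (QuotientAddGroup.mk' K)).domRestrict (sub l M))
  rw [← h]
  congr 1
  · rw [sub_map_mk K M hKM hK, LinearMap.range_domRestrict]
  · rw [LinearMap.ker_domRestrict, ker_map_mk]
    have h1 : sub l K ≤ sub l M := sub_mono hKM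
    exact (LinearEquiv.finrank_eq (Submodule.comapSubtypeEquivOfLe h1)).symm

end Fermat.Agent.S15.V
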