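import Fermat.Agent.S15.Abs.V.Card

/-!
# S15 ABS-V, file `WishCard`: (V6) cardinalities in a quotient `π : J → J'`, `ker π = img S`
-/

set_option autoImplicit false

noncomputable section

namespace Fermat.Agent.S15.V

open Fermat.Agent.S15

variable {J : Type} [AddCommGroup J] {l : ℕ} [Fact l.Prime]

/-- `0 → K[l^r] → M[l^r] → (π M)[l^r] → 0` is exact for `K = ker π ≤ M` divisible. -/
theorem card_map {J' : Type} [AddCommGroup J'] (π : J →+ J') (M : AddSubgroup J)
    (hKM : π.ker ≤ M) (hK : ∀ x ∈ π.ker, ∃ z ∈ π.ker, l • z = x) (r : ℕ) :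
    Nat.card (M.map π ⊓ tor J' l r : AddSubgroup J') *
      Nat.card (π.ker ⊓ tor J l r : AddSubgroup J) = Nat.card (M ⊓ tor J l r : AddSubgroup J) :=
  DvCard_card_map π M hKM hK r

/-- (V6). -/
theorem card_map_img (hfin : {x : J | l • x = 0}.Finite) {J' : Type} [AddCommGroup J']
    (π : J →+ J') (S U : Submodule ℚ_[l] (VV J l)) (hSU : S ≤ U) (hker : π.ker = img S) (r : ℕ) :
    Nat.card ((img U).map π ⊓ tor J' l r : AddSubgroup J') =
      l ^ (r * (Module.finrank ℚ_[l] U - Module.finrank ℚ_[l] S)) := by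
  have hfd : FiniteDimensional ℚ_[l] (VV J l) := finiteDimensional hfin
  have h := card_map (l := l) π (img U) (by rw [hker]; exact img_mono hSU)
    (by rw [hker]; exact img_div S) r
  rw [hker, card_img hfin, card_img hfin] at h
  have hle : Module.finrank ℚ_[l] S ≤ Module.finrank ℚ_[l] U := Submodule.finrank_mono hSU
  have hpos : 0 < l ^ (r * Module.finrank ℚ_[l] S) := pow_pos (Fact.out : l.Prime).pos _
  apply Nat.eq_of_mul_eq_mul_right hpos
  rw [h, ← pow_add, ← Nat.mul_add, Nat.sub_add_cancel hle]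

/-- the whole quotient. -/
theorem card_tor_quot (hfin : {x : J | l • x = 0}.Finite)
    (hdiv : ∀ x ∈ torInf J l, ∃ z : J, l • z = x) {J' : Type} [AddCommGroup J']
    (π : J →+ J') (hπ : Function.Surjective π) (S : Submodule ℚ_[l] (VV J l))
    (hker : π.ker = img S) (r : ℕ) :
    Nat.card (tor J' l r) =
      l ^ (r * (Module.finrank ℚ_[l] (VV J l) - Module.finrank ℚ_[l] S)) := by
  have h := card_map_img hfin π S ⊤ le_top hker r
  rw [finrank_top, img_top hdiv] at h
  rw [← h]
  congr 1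
  have : tor J' l r = ((torInf J l).map π ⊓ tor J' l r : AddSubgroup J') := by
    apply le_antisymm
    · intro y hy
      refine ⟨?_, hy⟩
      obtain ⟨x, rfl⟩ := hπ y
      have hy' : l ^ r • π x = 0 := hy
      have h1 : l ^ r • x ∈ π.ker := by rw [AddMonoidHom.mem_ker, map_nsmul, hy']
      obtain ⟨κ, hκ, hκ'⟩ := DvCard_div_pow π.ker (by rw [hker]; exact img_div S) r _ h1
      refine ⟨x - κ, ⟨r, by rw [smul_sub, hκ', sub_self]⟩, ?_⟩
      rw [map_sub, AddMonoidHom.mem_ker.1 hκ, sub_zero]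
    · exact inf_le_right
  rw [← this]

end Fermat.Agent.S15.V
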