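import Fermat.Agent.S15.Abs.V.WishScalar

/-!
# S15 ABS-V, file `WishClosed`: (V8) closedness of conditions on `σ`
-/

set_option autoImplicit false

noncomputable section

namespace Fermat.Agent.S15.V

open Fermat.Agent.S15

variable {J : Type} [AddCommGroup J] {l : ℕ} [Fact l.Prime]

/-- (V8).  `Γ` acts on `J` with open stabilisers, `χ : Γ → ℤ_l` is continuous.
[`mem_iff_forall_apply_mem`: the set is `⋂ a, {σ | σ • x a - x (χ σ * a) ∈ img S}` (`isClosed_iInter`).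
Fix `a`, `l ^ r • x a = 0` (`apply_mem_torInf`).  `x (χ σ * a) = ((toZModPow r (χ σ)).val) • x a`
(`apply_padicInt_mul`; `χ σ - (toZModPow r (χ σ)).val ∈ span {l ^ r}` by `PadicInt.ker_toZModPow`,
`ZMod.natCast_zmod_val`), so `σ ↦ σ • x a - x (χ σ * a)` is locally constant (`IsLocallyConstant.comp`,
`.sub` / `IsLocallyConstant.comp₂`) and the preimage of any set is clopen
(`IsLocallyConstant.isClosed_fiber`-style: `(h.isClopen_preimage? _).1`, or `h.isOpen_fiber` on the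
complement).] -/
theorem isClosed_setOf_rep_sub_smul_mem (hfin : {x : J | l • x = 0}.Finite) {Γ : Type} [Group Γ]
    [TopologicalSpace Γ] [DistribMulAction Γ J]
    (hc : ∀ y : J, IsLocallyConstant (fun σ : Γ => σ • y)) (χ : Γ → ℤ_[l])
    (hχ : ∀ r : ℕ, IsLocallyConstant (fun σ : Γ => PadicInt.toZModPow r (χ σ)))
    (S : Submodule ℚ_[l] (VV J l)) (x : VV J l) :
    IsClosed {σ : Γ | rep J l Γ σ x - (χ σ : ℚ_[l]) • x ∈ S} := by
  have hset : {σ : Γ | rep J l Γ σ x - (χ σ : ℚ_[l]) • x ∈ S} =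
      ⋂ a : ℚ_[l], {σ : Γ | σ • x a - x ((χ σ : ℚ_[l]) * a) ∈ img S} := by
    ext σ
    rw [Set.mem_setOf_eq, mem_iff_forall_apply_mem hfin S, Set.mem_iInter]
    rfl
  rw [hset]
  refine isClosed_iInter fun a => ?_
  obtain ⟨r, hr⟩ := apply_mem_torInf x a
  haveI : NeZero (l ^ r) := ⟨pow_ne_zero _ (Fact.out : l.Prime).ne_zero⟩
  have h1 : ∀ σ : Γ, x ((χ σ : ℚ_[l]) * a) = (PadicInt.toZModPow r (χ σ)).val • x a := by
    intro σ
    refine apply_padicInt_mul x a hr (χ σ) _ ?_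
    rw [← PadicInt.ker_toZModPow, RingHom.mem_ker, map_sub, map_natCast, ZMod.natCast_zmod_val,
      sub_self]
  have hlc : IsLocallyConstant (fun σ : Γ => σ • x a - x ((χ σ : ℚ_[l]) * a)) := by
    simp_rw [h1]
    exact (hc (x a)).sub ((hχ r).comp (fun z => z.val • x a))
  exact isOpen_compl_iff.1 (hlc ((img S : Set J)ᶜ))

/-- (V8), `χ = 1`. -/
theorem isClosed_setOf_rep_sub_mem (hfin : {x : J | l • x = 0}.Finite) {Γ : Type} [Group Γ]
    [TopologicalSpace Γ] [DistribMulAction Γ J]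
    (hc : ∀ y : J, IsLocallyConstant (fun σ : Γ => σ • y))
    (S : Submodule ℚ_[l] (VV J l)) (x : VV J l) :
    IsClosed {σ : Γ | rep J l Γ σ x - x ∈ S} := by
  have := isClosed_setOf_rep_sub_smul_mem hfin hc (fun _ => 1)
    (fun r => IsLocallyConstant.const _) S x
  simpa using this

/-- (V8) for all `x` in a set at once. -/
theorem isClosed_setOf_forall_rep_sub_smul_mem (hfin : {x : J | l • x = 0}.Finite) {Γ : Type}
    [Group Γ] [TopologicalSpace Γ] [DistribMulAction Γ J]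
    (hc : ∀ y : J, IsLocallyConstant (fun σ : Γ => σ • y)) (χ : Γ → ℤ_[l])
    (hχ : ∀ r : ℕ, IsLocallyConstant (fun σ : Γ => PadicInt.toZModPow r (χ σ)))
    (S : Submodule ℚ_[l] (VV J l)) (X : Set (VV J l)) :
    IsClosed {σ : Γ | ∀ x ∈ X, rep J l Γ σ x - (χ σ : ℚ_[l]) • x ∈ S} := by
  have : {σ : Γ | ∀ x ∈ X, rep J l Γ σ x - (χ σ : ℚ_[l]) • x ∈ S} =
      ⋂ x ∈ X, {σ : Γ | rep J l Γ σ x - (χ σ : ℚ_[l]) • x ∈ S} := by
    ext σ; simp
  rw [this]
  exact isClosed_biInter fun x _ => isClosed_setOf_rep_sub_smul_mem hfin hc χ hχ S x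

end Fermat.Agent.S15.V
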