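import Fermat.Agent.S15.Abs.V.WishScalar

/-!
# S15 ABS-V, file `WishKer`: (V10) isogenies on quotients
-/

set_option autoImplicit false

noncomputable section

namespace Fermat.Agent.S15.V

open Fermat.Agent.S15

variable {J : Type} [AddCommGroup J] {l : ℕ} [Fact l.Prime]

/-- (V10).  [`H := (img S).comap φ`.  `sub l H = S`: `f ∈ sub l H ↔ ∀ a, (map l φ f) a ∈ img S ↔
map l φ f ∈ S` (`mem_iff_forall_apply_mem`), `↔ f ∈ S` by `hinj`, `hstab`.  So `dv l H = img S` (`img_sub`).
`c` from `exists_add_of_mem hfin H`.  Let `y ∈ torInf J' l`, `φ' y = 0`; `y = π x` with `x ∈ torInf J l`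
(lift: `l^r • x₀ ∈ ker π = img S` divisible, subtract); `π (φ x) = 0`, so `x ∈ H`; `x = d + e`,
`d ∈ img S`, `l ^ c • e = 0`; `y = π e`.  So the set is contained in the image under `π` of the
finite set `tor J l c` (`finite_tor`).] -/
theorem finite_ker_quot (hfin : {x : J | l • x = 0}.Finite) {J' : Type} [AddCommGroup J']
    (π : J →+ J') (hπ : Function.Surjective π) (S : Submodule ℚ_[l] (VV J l))
    (hker : π.ker = img S) (φ : J →+ J) (φ' : J' →+ J') (hcomm : ∀ x, φ' (π x) = π (φ x))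
    (hstab : ∀ f ∈ S, map l φ f ∈ S) (hinj : ∀ f, map l φ f ∈ S → f ∈ S) :
    {y : J' | y ∈ torInf J' l ∧ φ' y = 0}.Finite := by
  have hsub : sub l ((img S).comap φ) = S := by
    ext f
    constructor
    · intro hf
      refine hinj f ((mem_iff_forall_apply_mem hfin S _).2 fun x => ?_)
      exact hf x
    · intro hf x
      exact (mem_iff_forall_apply_mem hfin S _).1 (hstab f hf) x
  have hdv : dv l ((img S).comap φ) = img S := by rw [← img_sub hfin, hsub]
  obtain ⟨c, hc⟩ := exists_add_of_mem hfin ((img S).comap φ)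
  have hft : ((tor J l c : AddSubgroup J) : Set J).Finite := by
    have := finite_tor hfin c
    exact Set.toFinite _
  refine (hft.image π).subset ?_
  rintro y ⟨⟨r, hr⟩, hy⟩
  obtain ⟨x₀, rfl⟩ := hπ y
  -- a torsion lift
  have h1 : l ^ r • x₀ ∈ img S := by
    rw [← hker, AddMonoidHom.mem_ker, map_nsmul, hr]
  have hdivr : ∀ (n : ℕ), ∀ w ∈ img S, ∃ z ∈ img S, l ^ n • z = w := by
    intro n
    induction n with
    | zero => exact fun w hw => ⟨w, hw, by simp⟩
    | succ n ih =>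
      intro w hw
      obtain ⟨z, hz, hzw⟩ := ih w hw
      obtain ⟨z', hz', hzz⟩ := img_div S z hz
      exact ⟨z', hz', by rw [pow_succ, mul_smul, hzz, hzw]⟩
  obtain ⟨κ, hκ, hκ'⟩ := hdivr r _ h1
  have hκ0 : π κ = 0 := by
    rw [← AddMonoidHom.mem_ker, hker]; exact hκ
  have hxt : x₀ - κ ∈ torInf J l := ⟨r, by rw [smul_sub, hκ', sub_self]⟩
  have hxH : x₀ - κ ∈ (img S).comap φ := by
    rw [AddSubgroup.mem_comap, ← hker, AddMonoidHom.mem_ker, ← hcomm, map_sub, hκ0, sub_zero, hy]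
  obtain ⟨d, hd, hde⟩ := hc _ hxH hxt
  rw [hdv] at hd
  have hd0 : π d = 0 := by
    rw [← AddMonoidHom.mem_ker, hker]; exact hd
  exact ⟨x₀ - κ - d, hde, by rw [map_sub, map_sub, hκ0, hd0, sub_zero, sub_zero]⟩

/-- variant: the elements of the quotient on which two endomorphisms agree. -/
theorem finite_eq_quot (hfin : {x : J | l • x = 0}.Finite) {J' : Type} [AddCommGroup J']
    (π : J →+ J') (hπ : Function.Surjective π) (S : Submodule ℚ_[l] (VV J l))
    (hker : π.ker = img S) (φ ψ : J →+ J) (φ' ψ' : J' →+ J')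
    (hφ : ∀ x, φ' (π x) = π (φ x)) (hψ : ∀ x, ψ' (π x) = π (ψ x))
    (hstab : ∀ f ∈ S, map l φ f - map l ψ f ∈ S)
    (hinj : ∀ f, map l φ f - map l ψ f ∈ S → f ∈ S) :
    {y : J' | y ∈ torInf J' l ∧ φ' y = ψ' y}.Finite := by
  have := finite_ker_quot hfin π hπ S hker (φ - ψ) (φ' - ψ')
    (fun x => by simp [hφ, hψ]) (fun f hf => by rw [map_sub']; exact hstab f hf)
    (fun f hf => hinj f (by rw [map_sub'] at hf; exact hf))
  refine this.subset ?_
  rintro y ⟨h1, h2⟩
  exact ⟨h1, by simp [h2]⟩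

end Fermat.Agent.S15.V
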