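import Fermat.Agent.S15.Abs.V.Map
import Fermat.Agent.S15.Abs.V.Quot
import Fermat.Agent.S15.Abs.V.WishCard
import Fermat.Agent.S15.Abs.V.WishClosed
import Fermat.Agent.S15.Abs.V.WishKer
import Fermat.Agent.S15.Abs.V.Inst
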