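import Fermat.Agent.S15.Abs.V.Defs

/-!
# S15 ABS-V, file `Dv`: the maximal divisible subgroup `dv l H` of `H ∩ J[l^∞]` (pure group theory)
`hfin : {x : J | l • x = 0}.Finite`.
-/

set_option autoImplicit false
set_option linter.unusedSectionVars false

noncomputable section

namespace Fermat.Agent.S15.V

open Fermat.Agent.S15

variable {J : Type} [AddCommGroup J] {l : ℕ} [Fact l.Prime]

theorem dv_le (H : AddSubgroup J) : dv l H ≤ H := by
  intro x hx
  obtain ⟨y, hy, rfl⟩ := hx.2 0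
  simpa using hy

theorem dv_le_torInf (H : AddSubgroup J) : dv l H ≤ torInf J l := fun _ h => h.1

theorem dv_mono {H H' : AddSubgroup J} (h : H ≤ H') : dv l H ≤ dv l H' := by
  intro x hx
  refine ⟨hx.1, fun n => ?_⟩
  obtain ⟨y, hy, hyx⟩ := hx.2 n
  exact ⟨y, h hy, hyx⟩

omit [Fact l.Prime] in
theorem Dv_finite_fiber (hfin : {x : J | l • x = 0}.Finite) (b : J) :
    {x : J | l • x = b}.Finite := by
  by_cases h : ∃ x₀ : J, l • x₀ = b
  · obtain ⟨x₀, hx₀⟩ := h
    refine (hfin.image (fun z => x₀ + z)).subset ?_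
    intro x hx
    refine ⟨x - x₀, ?_, by simp⟩
    show l • (x - x₀) = 0
    rw [smul_sub, show l • x = b from hx, hx₀, sub_self]
  · have : {x : J | l • x = b} = ∅ := by
      ext x
      simp only [Set.mem_ofPred_eq, Set.mem_empty_iff_false, iff_false]
      exact fun hx => h ⟨x, hx⟩
    rw [this]
    exact Set.finite_empty

omit [Fact l.Prime] in
theorem Dv_finite_tor_set (hfin : {x : J | l • x = 0}.Finite) (r : ℕ) :
    {x : J | l ^ r • x = 0}.Finite := by
  induction r with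
  | zero =>
    have : {x : J | l ^ 0 • x = 0} = {0} := by
      ext x
      simp
    rw [this]
    exact Set.finite_singleton 0
  | succ r ih =>
    have h1 := Set.Finite.preimage' (f := fun x : J => l • x) ih
      (fun b _ => Dv_finite_fiber hfin b)
    refine h1.subset ?_
    intro x hx
    show l ^ r • (l • x) = 0
    rw [← mul_smul, ← pow_succ]
    exact hx

/-- [induction on `r`: `J[l^(r+1)] → J[l^r]`, `x ↦ l • x`, has fibres which are cosets of `J[l]`;
`Set.Finite.preimage`-style or `Finite.of_finite_fibers`.] -/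
theorem finite_tor (hfin : {x : J | l • x = 0}.Finite) (r : ℕ) : Finite (tor J l r) :=
  (Dv_finite_tor_set hfin r).to_subtype

/-- [`x ∈ dv l H`.  `Z n := {z | l • z = x ∧ ∃ y ∈ H, l ^ n • y = z}` is nonempty (`x = l^(n+1) • y`,
`z = l^n • y`), decreasing in `n`, contained in the finite set `{z | l • z = x}` (a coset of `J[l]`).
So some `z` lies in all `Z n` (a decreasing sequence of nonempty finite sets has nonempty
intersection: otherwise every `z` of the finite set is excluded from some `Z (n z)`, take the max).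
This `z` is in `dv l H` (torsion because `l • z = x` is).] -/
theorem dv_div (hfin : {x : J | l • x = 0}.Finite) (H : AddSubgroup J) :
    ∀ x ∈ dv l H, ∃ z ∈ dv l H, l • z = x := by
  intro x hx
  by_contra hcon
  push Not at hcon
  have h1 : ∀ z : J, l • z = x → ∃ n : ℕ, ∀ y ∈ H, l ^ n • y ≠ z := by
    intro z hz
    by_contra h2
    push Not at h2
    refine hcon z ⟨?_, h2⟩ hz
    obtain ⟨r, hr⟩ := hx.1
    exact ⟨r + 1, by rw [pow_succ, mul_smul, hz, hr]⟩
  choose! n hn using h1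
  have hT := Dv_finite_fiber hfin x
  set Nmax := hT.toFinset.sup n with hN
  obtain ⟨y, hy, hyx⟩ := hx.2 (Nmax + 1)
  have hz : l • (l ^ Nmax • y) = x := by rw [← mul_smul, ← pow_succ', hyx]
  have hle : n (l ^ Nmax • y) ≤ Nmax := Finset.le_sup (f := n) (hT.mem_toFinset.2 hz)
  refine hn _ hz (l ^ (Nmax - n (l ^ Nmax • y)) • y) (H.nsmul_mem hy _) ?_
  rw [← mul_smul, ← pow_add, Nat.add_sub_cancel' hle]

theorem dv_eq_of_div {H : AddSubgroup J} (hH : H ≤ torInf J l)
    (hdiv : ∀ x ∈ H, ∃ z ∈ H, l • z = x) : dv l H = H := by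
  refine le_antisymm (dv_le H) ?_
  intro x hx
  refine ⟨hH hx, fun n => ?_⟩
  induction n generalizing x with
  | zero => exact ⟨x, hx, by simp⟩
  | succ n ih =>
    obtain ⟨z, hz, hzx⟩ := hdiv x hx
    obtain ⟨y, hy, hyz⟩ := ih hz
    exact ⟨y, hy, by rw [pow_succ', mul_smul, hyz, hzx]⟩

theorem Dv_div_iter (hfin : {x : J | l • x = 0}.Finite) (H : AddSubgroup J) (n : ℕ) :
    ∀ x ∈ dv l H, ∃ z ∈ dv l H, l ^ n • z = x := by
  induction n with
  | zero => exact fun x hx => ⟨x, hx, by simp⟩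
  | succ n ih =>
    intro x hx
    obtain ⟨z, hz, hzx⟩ := dv_div hfin H x hx
    obtain ⟨y, hy, hyz⟩ := ih z hz
    exact ⟨y, hy, by rw [pow_succ', mul_smul, hyz, hzx]⟩

/-- [`S n := {x | l • x = 0 ∧ ∃ y ∈ H, l ^ n • y = x}` is a decreasing sequence of subsets of a finite
set, so there is `c` with `S n = S c` for `n ≥ c`; so `S c ⊆ dv l H`.  Claim: for all `t` and all
`w` with `l ^ t • w = 0`, `w = l ^ c • y`, `y ∈ H`: `w ∈ dv l H`.  Induction on `t`: `l^t • w ∈ S (c+t) = S c
⊆ dv l H` (for `l^(t+1) • w = 0`), by `dv_div` iterated there is `d' ∈ dv l H` with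
`l ^ (t + c) • d' = l ^ t • w`; `d := l ^ c • d'`; `w - d = l ^ c • (y - d')` is killed by `l ^ t`.] -/
theorem exists_pow_smul_mem_dv (hfin : {x : J | l • x = 0}.Finite) (H : AddSubgroup J) :
    ∃ c : ℕ, ∀ x ∈ H, x ∈ torInf J l → l ^ c • x ∈ dv l H := by
  classical
  -- the stabilisation index
  have h1 : ∀ x : J, ∃ n : ℕ, (∀ y ∈ H, l ^ n • y ≠ x) ∨ ∀ m : ℕ, ∃ y ∈ H, l ^ m • y = x := by
    intro x
    by_cases h : ∀ m : ℕ, ∃ y ∈ H, l ^ m • y = x
    · exact ⟨0, Or.inr h⟩
    · push Not at h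
      obtain ⟨n, hn⟩ := h
      exact ⟨n, Or.inl hn⟩
  choose n hn using h1
  set c := hfin.toFinset.sup n with hc
  have hS : ∀ u : J, l • u = 0 → (∃ y ∈ H, l ^ c • y = u) → u ∈ dv l H := by
    intro u hu ⟨y, hy, hyu⟩
    have hle : n u ≤ c := Finset.le_sup (f := n) (hfin.mem_toFinset.2 hu)
    rcases hn u with h | h
    · exact absurd (by rw [← mul_smul, ← pow_add, Nat.add_sub_cancel' hle, hyu])
        (h (l ^ (c - n u) • y) (H.nsmul_mem hy _))
    · exact ⟨⟨1, by rw [pow_one, hu]⟩, h⟩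
  have claim : ∀ (t : ℕ) (w : J), l ^ t • w = 0 → (∃ y ∈ H, l ^ c • y = w) → w ∈ dv l H := by
    intro t
    induction t with
    | zero =>
      intro w hw _
      rw [pow_zero, one_smul] at hw
      rw [hw]
      exact (dv l H).zero_mem
    | succ t ih =>
      intro w hw ⟨y, hy, hyw⟩
      have hu : l ^ t • w ∈ dv l H := by
        apply hS
        · rw [← mul_smul, ← pow_succ', hw]
        · exact ⟨l ^ t • y, H.nsmul_mem hy _, by rw [smul_comm, hyw]⟩
      obtain ⟨d', hd', hd'u⟩ := Dv_div_iter hfin H (t + c) _ hu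
      have h2 : w - l ^ c • d' ∈ dv l H := by
        apply ih
        · rw [smul_sub, ← mul_smul, ← pow_add, hd'u, sub_self]
        · exact ⟨y - d', H.sub_mem hy (dv_le H hd'), by rw [smul_sub, hyw]⟩
      have h3 := (dv l H).add_mem h2 ((dv l H).nsmul_mem hd' (l ^ c))
      rwa [sub_add_cancel] at h3
  refine ⟨c, fun x hx ⟨r, hr⟩ => claim r _ ?_ ⟨x, hx, rfl⟩⟩
  rw [smul_comm, hr, smul_zero]

/-- [`c` from `exists_pow_smul_mem_dv`; `l^c • x = l^c • d` with `d ∈ dv l H` (`dv_div` iterated).] -/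
theorem exists_add_of_mem (hfin : {x : J | l • x = 0}.Finite) (H : AddSubgroup J) :
    ∃ c : ℕ, ∀ x ∈ H, x ∈ torInf J l → ∃ d ∈ dv l H, l ^ c • (x - d) = 0 := by
  obtain ⟨c, hc⟩ := exists_pow_smul_mem_dv hfin H
  refine ⟨c, fun x hx hxt => ?_⟩
  obtain ⟨d, hd, hdx⟩ := Dv_div_iter hfin H c _ (hc x hx hxt)
  exact ⟨d, hd, by rw [smul_sub, hdx, sub_self]⟩

/-- [a finite divisible `l`-primary group is zero; conversely `exists_pow_smul_mem_dv` and
`finite_tor`.] -/
theorem dv_eq_bot_iff (hfin : {x : J | l • x = 0}.Finite) (H : AddSubgroup J) :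
    dv l H = ⊥ ↔ ((H ⊓ torInf J l : AddSubgroup J) : Set J).Finite := by
  constructor
  · intro h
    obtain ⟨c, hc⟩ := exists_pow_smul_mem_dv hfin H
    refine (Dv_finite_tor_set hfin c).subset ?_
    intro x hx
    have h1 := hc x hx.1 hx.2
    rw [h, AddSubgroup.mem_bot] at h1
    exact h1
  · intro h
    rw [eq_bot_iff]
    intro x hx
    have h1 : ∀ z : J, ∃ r : ℕ, z ∈ torInf J l → l ^ r • z = 0 := by
      intro z
      by_cases hz : z ∈ torInf J l
      · obtain ⟨r, hr⟩ := hz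
        exact ⟨r, fun _ => hr⟩
      · exact ⟨0, fun h => absurd h hz⟩
    choose r hr using h1
    set R := h.toFinset.sup r with hR
    obtain ⟨z, hz, hzx⟩ := Dv_div_iter hfin H R x hx
    have hzm : z ∈ ((H ⊓ torInf J l : AddSubgroup J) : Set J) := ⟨dv_le H hz, hz.1⟩
    have hle : r z ≤ R := Finset.le_sup (f := r) (h.mem_toFinset.2 hzm)
    rw [AddSubgroup.mem_bot, ← hzx, ← Nat.sub_add_cancel hle, pow_add, mul_smul, hr z hz.1,
      smul_zero]

end Fermat.Agent.S15.V
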