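import Fermat.Agent.S15.Abs.V.Defs

/-!
# S15 ABS-V, file `Basic`: values of `f ∈ VV J l`; `ℤ_l` acts on values through integers
Notation: `π = (l : ℚ_[l])`.
-/

set_option autoImplicit false

noncomputable section

namespace Fermat.Agent.S15.V

open Fermat.Agent.S15

variable {J : Type} [AddCommGroup J] {l : ℕ} [Fact l.Prime]

theorem natCast_mul_apply (f : VV J l) (n : ℕ) (a : ℚ_[l]) : f ((n : ℚ_[l]) * a) = n • f a := by
  rw [← nsmul_eq_mul, map_nsmul]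

theorem pow_mul_apply (f : VV J l) (r : ℕ) (a : ℚ_[l]) :
    f ((l : ℚ_[l]) ^ r * a) = l ^ r • f a := by
  rw [← natCast_mul_apply]
  push_cast
  rfl

/-- [`π ^ j * a = b ∈ ℤ_l` (`exists_pow_mul_eq`), `f` kills `π ^ k ℤ_l` (`VV.kill`): `K = k + j`.] -/
theorem exists_kill (f : VV J l) (a : ℚ_[l]) :
    ∃ K : ℕ, ∀ x : ℤ_[l], f ((l : ℚ_[l]) ^ K * x * a) = 0 := by
  obtain ⟨k, hk⟩ := f.kill
  obtain ⟨j, b, hb⟩ := exists_pow_mul_eq a
  refine ⟨k + j, fun x => ?_⟩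
  have h1 : (l : ℚ_[l]) ^ (k + j) * x * a = (l : ℚ_[l]) ^ k * ((x * b : ℤ_[l]) : ℚ_[l]) := by
    push_cast
    rw [← hb]
    ring
  rw [h1]
  exact hk _

/-- [`exists_kill` with `x = 1`, `pow_mul_apply`.] -/
theorem apply_mem_torInf (f : VV J l) (a : ℚ_[l]) : f a ∈ torInf J l := by
  obtain ⟨K, hK⟩ := exists_kill f a
  refine ⟨K, ?_⟩
  rw [← pow_mul_apply]
  have := hK 1
  simpa using this

/-- [`K` from `exists_kill`; `y = n + l ^ K z` with `n = y.appr K` (`PadicInt.appr_spec`,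
`Ideal.mem_span_singleton`): `f (π^r y a) = n • (l^r • f a) + f (π^K (l^r z) a) = 0`.] -/
theorem apply_pow_mul_padicInt (f : VV J l) (a : ℚ_[l]) {r : ℕ} (hr : l ^ r • f a = 0)
    (y : ℤ_[l]) : f ((l : ℚ_[l]) ^ r * y * a) = 0 := by
  obtain ⟨K, hK⟩ := exists_kill f a
  obtain ⟨z, hz⟩ := Ideal.mem_span_singleton.1 (PadicInt.appr_spec K y)
  have hy : (y : ℚ_[l]) = (y.appr K : ℚ_[l]) + (l : ℚ_[l]) ^ K * z := by
    have : y = (y.appr K : ℤ_[l]) + (l : ℤ_[l]) ^ K * z := by rw [← hz]; ring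
    calc (y : ℚ_[l]) = (((y.appr K : ℤ_[l]) + (l : ℤ_[l]) ^ K * z : ℤ_[l]) : ℚ_[l]) := by
          rw [← this]
      _ = _ := by push_cast; rfl
  have h1 : (l : ℚ_[l]) ^ r * y * a = (y.appr K : ℚ_[l]) * ((l : ℚ_[l]) ^ r * a) +
      (l : ℚ_[l]) ^ K * (((l : ℤ_[l]) ^ r * z : ℤ_[l]) : ℚ_[l]) * a := by
    rw [hy]
    push_cast
    ring
  rw [h1, map_add, natCast_mul_apply, pow_mul_apply, hr, smul_zero, hK, add_zero]

/-- `ℤ_l` acts on the values through integers.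
[`x = k + l ^ r y`; `apply_pow_mul_padicInt`, `natCast_mul_apply`.] -/
theorem apply_padicInt_mul (f : VV J l) (a : ℚ_[l]) {r : ℕ} (hr : l ^ r • f a = 0) (x : ℤ_[l])
    (k : ℕ) (hk : x - (k : ℤ_[l]) ∈ Ideal.span {(l : ℤ_[l]) ^ r}) : f (x * a) = k • f a := by
  obtain ⟨y, hy⟩ := Ideal.mem_span_singleton.1 hk
  have hx : (x : ℚ_[l]) = (k : ℚ_[l]) + (l : ℚ_[l]) ^ r * y := by
    have : x = (k : ℤ_[l]) + (l : ℤ_[l]) ^ r * y := by rw [← hy]; ring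
    calc (x : ℚ_[l]) = (((k : ℤ_[l]) + (l : ℤ_[l]) ^ r * y : ℤ_[l]) : ℚ_[l]) := by rw [← this]
      _ = _ := by push_cast; rfl
  rw [hx, add_mul, map_add, natCast_mul_apply, apply_pow_mul_padicInt f a hr, add_zero]

/-- [`apply_mem_torInf`, `apply_padicInt_mul` with `k = x.appr r`.] -/
theorem exists_apply_padicInt_mul (f : VV J l) (a : ℚ_[l]) (x : ℤ_[l]) :
    ∃ k : ℕ, f (x * a) = k • f a := by
  obtain ⟨r, hr⟩ := apply_mem_torInf f a
  exact ⟨x.appr r, apply_padicInt_mul f a hr x _ (PadicInt.appr_spec r x)⟩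

theorem nsmul_apply_inv_pow_succ (f : VV J l) (r : ℕ) :
    l • f (((l : ℚ_[l]) ^ (r + 1))⁻¹) = f (((l : ℚ_[l]) ^ r)⁻¹) := by
  have hl : (l : ℚ_[l]) ≠ 0 := by exact_mod_cast (Fact.out : l.Prime).ne_zero
  rw [← natCast_mul_apply]
  congr 1
  rw [pow_succ]
  field_simp

/-- every value is an integer multiple of some `f (π ^ j)⁻¹`.
[`π ^ j * a = b`, so `a = b * (π ^ j)⁻¹`; `exists_apply_padicInt_mul`.] -/
theorem exists_apply_eq_nsmul (f : VV J l) (a : ℚ_[l]) :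
    ∃ j k : ℕ, f a = k • f (((l : ℚ_[l]) ^ j)⁻¹) := by
  have hl : (l : ℚ_[l]) ≠ 0 := by exact_mod_cast (Fact.out : l.Prime).ne_zero
  obtain ⟨j, b, hb⟩ := exists_pow_mul_eq a
  obtain ⟨k, hk⟩ := exists_apply_padicInt_mul f (((l : ℚ_[l]) ^ j)⁻¹) b
  refine ⟨j, k, ?_⟩
  rw [← hk, ← hb]
  congr 1
  field_simp

theorem mem_sub_of_inv_pow {H : AddSubgroup J} {f : VV J l}
    (h : ∀ r : ℕ, f (((l : ℚ_[l]) ^ r)⁻¹) ∈ H) : f ∈ sub l H := by
  intro a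
  obtain ⟨j, k, hk⟩ := exists_apply_eq_nsmul f a
  rw [hk]
  exact H.nsmul_mem (h j) k

/-- [apply `mem_sub_of_inv_pow` to `f - g` and `H = ⊥`.] -/
theorem ext_of_inv_pow {f g : VV J l}
    (h : ∀ r : ℕ, f (((l : ℚ_[l]) ^ r)⁻¹) = g (((l : ℚ_[l]) ^ r)⁻¹)) : f = g := by
  have h1 : f - g ∈ sub l (⊥ : AddSubgroup J) := by
    refine mem_sub_of_inv_pow fun r => ?_
    rw [sub_apply, h r, sub_self]
    exact AddSubgroup.zero_mem _
  ext x
  have := h1 x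
  rw [AddSubgroup.mem_bot, sub_apply, sub_eq_zero] at this
  exact this

theorem natCast_smul (n : ℕ) (f : VV J l) : (n : ℚ_[l]) • f = n • f :=
  Nat.cast_smul_eq_nsmul ℚ_[l] n f

theorem intCast_smul (n : ℤ) (f : VV J l) : (n : ℚ_[l]) • f = n • f :=
  Int.cast_smul_eq_zsmul ℚ_[l] n f

/-- (V5) a scalar of `ℤ_l` acts on a value killed by `l ^ r` through its residue mod `l ^ r`. -/
theorem padicInt_smul_apply (a : ℤ_[l]) (k r : ℕ)
    (h : a - (k : ℤ_[l]) ∈ Ideal.span {(l : ℤ_[l]) ^ r}) (f : VV J l) (x : ℚ_[l])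
    (hx : l ^ r • f x = 0) : ((a : ℚ_[l]) • f) x = k • f x := by
  rw [smul_apply]
  exact apply_padicInt_mul f x hx a k h

/-- (V5) an endomorphism which is multiplication by `k r` on `J[l ^ r]`, `k r → a`, induces the
scalar `a`. -/
theorem map_eq_smul (φ : J →+ J) (a : ℤ_[l]) (k : ℕ → ℕ)
    (hk : ∀ r, a - (k r : ℤ_[l]) ∈ Ideal.span {(l : ℤ_[l]) ^ r})
    (hφ : ∀ (r : ℕ) (x : J), l ^ r • x = 0 → φ x = k r • x) (f : VV J l) :
    map l φ f = (a : ℚ_[l]) • f := by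
  ext x
  obtain ⟨r, hr⟩ := apply_mem_torInf f x
  rw [map_apply, hφ r _ hr, padicInt_smul_apply a (k r) r (hk r) f x hr]

end Fermat.Agent.S15.V
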