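import Fermat.Agent.S15.Abs.V.Dv

/-!
# S15 ABS-V, file `DvCard`: cardinalities of torsion levels (pure group theory)
-/

set_option autoImplicit false

noncomputable section

namespace Fermat.Agent.S15.V

open Fermat.Agent.S15

variable {J : Type} [AddCommGroup J] {l : ℕ} [Fact l.Prime]

omit [Fact l.Prime] in
theorem DvCard_card_succ (D : AddSubgroup J)
    (hdiv : ∀ x ∈ D, ∃ z ∈ D, l • z = x) (r : ℕ) :
    Nat.card (D ⊓ tor J l (r + 1) : AddSubgroup J) =
      Nat.card (D ⊓ tor J l 1 : AddSubgroup J) * Nat.card (D ⊓ tor J l r : AddSubgroup J) := by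
  let f : (D ⊓ tor J l (r + 1) : AddSubgroup J) →+ (D ⊓ tor J l r : AddSubgroup J) :=
    { toFun := fun x => ⟨l • (x : J), D.nsmul_mem x.2.1 l, by
        show l ^ r • (l • (x : J)) = 0
        rw [← mul_smul, ← pow_succ]
        exact x.2.2⟩
      map_zero' := by
        apply Subtype.ext
        simp
      map_add' := by
        intro x y
        apply Subtype.ext
        simp }
  have hf : Function.Surjective f := by
    rintro ⟨y, hyD, hyt⟩
    obtain ⟨z, hz, hzy⟩ := hdiv y hyD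
    refine ⟨⟨z, hz, ?_⟩, Subtype.ext hzy⟩
    show l ^ (r + 1) • z = 0
    rw [pow_succ, mul_smul, hzy]
    exact hyt
  have hle : (D ⊓ tor J l 1 : AddSubgroup J) ≤ D ⊓ tor J l (r + 1) := by
    intro x hx
    refine ⟨hx.1, ?_⟩
    show l ^ (r + 1) • x = 0
    have h1 : l ^ 1 • x = 0 := hx.2
    rw [pow_add, mul_smul, h1, smul_zero]
  have hker : f.ker = (D ⊓ tor J l 1 : AddSubgroup J).addSubgroupOf (D ⊓ tor J l (r + 1)) := by
    ext x
    rw [AddMonoidHom.mem_ker, AddSubgroup.mem_addSubgroupOf]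
    constructor
    · intro h
      refine ⟨x.2.1, ?_⟩
      show l ^ 1 • (x : J) = 0
      rw [pow_one]
      exact congrArg Subtype.val h
    · intro h
      apply Subtype.ext
      show l • (x : J) = 0
      have h1 : l ^ 1 • (x : J) = 0 := h.2
      rwa [pow_one] at h1
  have h1 := f.ker.card_mul_index
  rw [AddSubgroup.index_ker, AddMonoidHom.range_eq_top.2 hf, hker,
    Nat.card_congr (AddSubgroup.addSubgroupOfEquivOfLe hle).toEquiv,
    Nat.card_congr (AddSubgroup.topEquiv).toEquiv] at h1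
  exact h1.symm

/-- [`D[l^(r+1)] → D[l^r]`, `x ↦ l • x`, is onto (divisibility) with kernel `D[l]`;
`AddSubgroup.card_eq_card_quotient_mul_card_addSubgroup` / `Nat.card_congr` + first isomorphism theorem;
induction on `r`.] -/
theorem card_div (hfin : {x : J | l • x = 0}.Finite) (D : AddSubgroup J)
    (hdiv : ∀ x ∈ D, ∃ z ∈ D, l • z = x) (r : ℕ) :
    Nat.card (D ⊓ tor J l r : AddSubgroup J) = Nat.card (D ⊓ tor J l 1 : AddSubgroup J) ^ r := by
  induction r with
  | zero =>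
    have h0 : (D ⊓ tor J l 0 : AddSubgroup J) = ⊥ := by
      rw [eq_bot_iff]
      intro x hx
      have h1 : l ^ 0 • x = 0 := hx.2
      rw [pow_zero, one_smul] at h1
      rw [AddSubgroup.mem_bot, h1]
    rw [h0, pow_zero]
    exact AddSubgroup.card_bot
  | succ r ih => rw [DvCard_card_succ D hdiv r, ih, pow_succ']

/-- [`c₀` from `exists_add_of_mem`: the map `H[l^r] → H[l^∞] / dv l H` has kernel `(dv l H)[l^r]` and
its image is contained in the image of the finite group `J[l^c₀]`, of order dividing a power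
`l ^ c` (`c` := any exponent with `Nat.card (tor J l c₀) ≤ l ^ c`).] -/
theorem card_le_dv (hfin : {x : J | l • x = 0}.Finite) (H : AddSubgroup J) :
    ∃ c : ℕ, ∀ r : ℕ, Nat.card (H ⊓ tor J l r : AddSubgroup J) ≤
      l ^ c * Nat.card (dv l H ⊓ tor J l r : AddSubgroup J) := by
  obtain ⟨c₀, hc₀⟩ := exists_add_of_mem hfin H
  haveI : Finite (tor J l c₀) := finite_tor hfin c₀
  refine ⟨Nat.card (tor J l c₀), fun r => ?_⟩
  let f : (H ⊓ tor J l r : AddSubgroup J) →+ J ⧸ dv l H :=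
    (QuotientAddGroup.mk' (dv l H)).comp (AddSubgroup.subtype _)
  have hle : (dv l H ⊓ tor J l r : AddSubgroup J) ≤ H ⊓ tor J l r :=
    inf_le_inf_right _ (dv_le H)
  have hker : f.ker = (dv l H ⊓ tor J l r : AddSubgroup J).addSubgroupOf (H ⊓ tor J l r) := by
    ext x
    rw [AddMonoidHom.mem_ker, AddSubgroup.mem_addSubgroupOf]
    show QuotientAddGroup.mk' (dv l H) (x : J) = 0 ↔ _
    rw [← AddMonoidHom.mem_ker, QuotientAddGroup.ker_mk']
    exact ⟨fun h => ⟨h, x.2.2⟩, fun h => h.1⟩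
  have hrange : ∀ y : f.range, ∃ t : tor J l c₀, QuotientAddGroup.mk' (dv l H) (t : J) = y := by
    rintro ⟨y, x, rfl⟩
    obtain ⟨d, hd, hdx⟩ := hc₀ x x.2.1 ⟨r, x.2.2⟩
    refine ⟨⟨(x : J) - d, hdx⟩, ?_⟩
    show QuotientAddGroup.mk' (dv l H) ((x : J) - d) = QuotientAddGroup.mk' (dv l H) (x : J)
    rw [map_sub, sub_eq_self, ← AddMonoidHom.mem_ker, QuotientAddGroup.ker_mk']
    exact hd
  choose s hs using hrange
  have hsinj : Function.Injective s := by
    intro a b hab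
    apply Subtype.ext
    rw [← hs a, ← hs b, hab]
  have h2 : Nat.card f.range ≤ Nat.card (tor J l c₀) := Nat.card_le_card_of_injective s hsinj
  have h3 : Nat.card (tor J l c₀) ≤ l ^ Nat.card (tor J l c₀) :=
    (Nat.lt_pow_self (Fact.out : l.Prime).one_lt).le
  have h1 := f.ker.card_mul_index
  rw [AddSubgroup.index_ker, hker,
    Nat.card_congr (AddSubgroup.addSubgroupOfEquivOfLe hle).toEquiv] at h1
  rw [← h1, mul_comm]
  exact Nat.mul_le_mul_right _ (h2.trans h3)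

theorem DvCard_div_pow (K : AddSubgroup J) (hK : ∀ x ∈ K, ∃ z ∈ K, l • z = x) (n : ℕ) :
    ∀ w ∈ K, ∃ z ∈ K, l ^ n • z = w := by
  induction n with
  | zero => exact fun w hw => ⟨w, hw, by simp⟩
  | succ n ih =>
    intro w hw
    obtain ⟨z, hz, hzw⟩ := ih w hw
    obtain ⟨z', hz', hzz⟩ := hK z hz
    exact ⟨z', hz', by rw [pow_succ, mul_smul, hzz, hzw]⟩

/-- general form of `card_quot`. -/
theorem DvCard_card_map {J' : Type} [AddCommGroup J'] (π : J →+ J') (M : AddSubgroup J)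
    (hKM : π.ker ≤ M) (hK : ∀ x ∈ π.ker, ∃ z ∈ π.ker, l • z = x) (r : ℕ) :
    Nat.card (M.map π ⊓ tor J' l r : AddSubgroup J') *
      Nat.card (π.ker ⊓ tor J l r : AddSubgroup J) = Nat.card (M ⊓ tor J l r : AddSubgroup J) := by
  let ψ : (M ⊓ tor J l r : AddSubgroup J) →+ (M.map π ⊓ tor J' l r : AddSubgroup J') :=
    { toFun := fun x => ⟨π x.1, ⟨⟨x.1, x.2.1, rfl⟩, by
        show l ^ r • π x.1 = 0
        rw [← map_nsmul, show l ^ r • x.1 = 0 from x.2.2, map_zero]⟩⟩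
      map_zero' := Subtype.ext (map_zero π)
      map_add' := fun x y => Subtype.ext (map_add π x.1 y.1) }
  have hψ : Function.Surjective ψ := by
    rintro ⟨y, ⟨m, hm, rfl⟩, hy⟩
    have hy' : l ^ r • π m = 0 := hy
    have h1 : l ^ r • m ∈ π.ker := by rw [AddMonoidHom.mem_ker, map_nsmul, hy']
    obtain ⟨κ, hκ, hκ'⟩ := DvCard_div_pow π.ker hK r _ h1
    refine ⟨⟨m - κ, ⟨M.sub_mem hm (hKM hκ), ?_⟩⟩, Subtype.ext ?_⟩
    · show l ^ r • (m - κ) = 0
      rw [smul_sub, hκ', sub_self]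
    · show π (m - κ) = π m
      rw [map_sub, AddMonoidHom.mem_ker.1 hκ, sub_zero]
  have e1 : Nat.card ((M ⊓ tor J l r : AddSubgroup J) ⧸ ψ.ker) =
      Nat.card (M.map π ⊓ tor J' l r : AddSubgroup J') :=
    Nat.card_congr (QuotientAddGroup.quotientKerEquivOfSurjective ψ hψ).toEquiv
  have e2 : Nat.card ψ.ker = Nat.card (π.ker ⊓ tor J l r : AddSubgroup J) := by
    refine Nat.card_congr
      { toFun := fun x => ⟨x.1.1, ⟨?_, x.1.2.2⟩⟩
        invFun := fun y => ⟨⟨y.1, ⟨hKM y.2.1, y.2.2⟩⟩, ?_⟩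
        left_inv := fun x => rfl
        right_inv := fun y => rfl }
    · have := x.2
      rw [AddMonoidHom.mem_ker] at this
      exact congrArg Subtype.val this
    · rw [AddMonoidHom.mem_ker]
      exact Subtype.ext (AddMonoidHom.mem_ker.1 y.2.1)
  rw [AddSubgroup.card_eq_card_quotient_mul_card_addSubgroup ψ.ker, e1, e2]

/-- quotient by a divisible subgroup: `0 → K[l^r] → M[l^r] → (M/K)[l^r] → 0` is exact.
[onto: `l^r • m ∈ K`, `= l^r • κ` with `κ ∈ K` (divisibility iterated), `m - κ ∈ M[l^r]`.] -/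
theorem card_quot (K M : AddSubgroup J) (hKM : K ≤ M) (hK : ∀ x ∈ K, ∃ z ∈ K, l • z = x) (r : ℕ) :
    Nat.card ((M.map (QuotientAddGroup.mk' K)) ⊓ tor (J ⧸ K) l r : AddSubgroup (J ⧸ K)) *
      Nat.card (K ⊓ tor J l r : AddSubgroup J) = Nat.card (M ⊓ tor J l r : AddSubgroup J) := by
  have := DvCard_card_map (l := l) (QuotientAddGroup.mk' K) M
    (by rw [QuotientAddGroup.ker_mk']; exact hKM) (by rw [QuotientAddGroup.ker_mk']; exact hK) r
  rwa [QuotientAddGroup.ker_mk'] at this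

/-- [as in `card_quot`.] -/
theorem finite_quot_tor (hfin : {x : J | l • x = 0}.Finite) (K : AddSubgroup J)
    (hK : ∀ x ∈ K, ∃ z ∈ K, l • z = x) : {x : J ⧸ K | l • x = 0}.Finite := by
  refine (hfin.image (QuotientAddGroup.mk' K)).subset ?_
  intro x hx
  obtain ⟨y, rfl⟩ := QuotientAddGroup.mk'_surjective K x
  have h1 : l • y ∈ K := by
    rw [← QuotientAddGroup.eq_zero_iff]
    exact hx
  obtain ⟨κ, hκ, hκ'⟩ := hK _ h1
  refine ⟨y - κ, by show l • (y - κ) = 0; rw [smul_sub, hκ', sub_self], ?_⟩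
  rw [map_sub, sub_eq_self]
  exact (QuotientAddGroup.eq_zero_iff κ).2 hκ

/-- torsion of the quotient lifts to torsion. -/
theorem exists_torInf_lift (K : AddSubgroup J) (hK : ∀ x ∈ K, ∃ z ∈ K, l • z = x) (x : J ⧸ K)
    (hx : x ∈ torInf (J ⧸ K) l) : ∃ y ∈ torInf J l, QuotientAddGroup.mk' K y = x := by
  obtain ⟨r, hr⟩ := hx
  obtain ⟨y, rfl⟩ := QuotientAddGroup.mk'_surjective K x
  have h1 : l ^ r • y ∈ K := by
    rw [← QuotientAddGroup.eq_zero_iff]
    exact hr
  obtain ⟨κ, hκ, hκ'⟩ := DvCard_div_pow K hK r _ h1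
  refine ⟨y - κ, ⟨r, by rw [smul_sub, hκ', sub_self]⟩, ?_⟩
  rw [map_sub, sub_eq_self]
  exact (QuotientAddGroup.eq_zero_iff κ).2 hκ

end Fermat.Agent.S15.V
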