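import Fermat.Agent.S15.Abs.V.Construct
import Fermat.Agent.S15.Abs.V.Dv

/-!
# S15 ABS-V, file `Img`: (V1) `img (sub l H) = dv l H`
-/

set_option autoImplicit false

noncomputable section

namespace Fermat.Agent.S15.V

open Fermat.Agent.S15

variable {J : Type} [AddCommGroup J] {l : ℕ} [Fact l.Prime]

theorem img_le_torInf (U : Submodule ℚ_[l] (VV J l)) : img U ≤ torInf J l := by
  rintro x ⟨f, -, rfl⟩
  exact apply_mem_torInf f 1

theorem img_mono {U U' : Submodule ℚ_[l] (VV J l)} (h : U ≤ U') : img U ≤ img U' := by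
  rintro x ⟨f, hf, rfl⟩
  exact ⟨f, h hf, rfl⟩

theorem sub_mono {H H' : AddSubgroup J} (h : H ≤ H') : sub l H ≤ sub l H' :=
  fun _ hf x => h (hf x)

/-- all values of `f ∈ U` lie in `img U`: `f x = (x • f) 1`. -/
theorem apply_mem_img {U : Submodule ℚ_[l] (VV J l)} {f : VV J l} (hf : f ∈ U) (x : ℚ_[l]) :
    f x ∈ img U := by
  refine ⟨x • f, U.smul_mem x hf, ?_⟩
  rw [ev_apply, smul_apply, mul_one]

theorem le_sub_img (U : Submodule ℚ_[l] (VV J l)) : U ≤ sub l (img U) :=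
  fun _ hf x => apply_mem_img hf x

/-- [`f 1 = l • (π⁻¹ • f) 1`.] -/
theorem img_div (U : Submodule ℚ_[l] (VV J l)) : ∀ x ∈ img U, ∃ z ∈ img U, l • z = x := by
  rintro x ⟨f, hf, rfl⟩
  refine ⟨f ((l : ℚ_[l])⁻¹), apply_mem_img hf _, ?_⟩
  have := nsmul_apply_inv_pow_succ f 0
  simpa using this

theorem img_sub_le (H : AddSubgroup J) : img (sub l H) ≤ H := by
  rintro x ⟨f, hf, rfl⟩
  exact hf 1

/-- (V1) for a divisible subgroup.  [recursion: `x 0 = x`, `x (r+1) ∈ H` with `l • x (r+1) = x r`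
(sequence in the subtype `H`), `exists_of_seq`, `mem_sub_of_inv_pow`; `(π ^ 0)⁻¹ = 1`.] -/
theorem exists_mem_sub_of_div {H : AddSubgroup J} (hdiv : ∀ x ∈ H, ∃ z ∈ H, l • z = x) {x : J}
    (hx : x ∈ H) (hx' : x ∈ torInf J l) : ∃ f ∈ sub l H, f 1 = x := by
  choose g hg using fun y : H => hdiv y.1 y.2
  let s : ℕ → H := fun r => Nat.rec ⟨x, hx⟩ (fun _ y => ⟨g y, (hg y).1⟩) r
  have hs : ∀ r : ℕ, l • ((s (r + 1)).1 : J) = (s r).1 := by
    intro r
    exact (hg (s r)).2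
  obtain ⟨f, hf⟩ := exists_of_seq (fun r => (s r).1) hs hx'
  refine ⟨f, mem_sub_of_inv_pow fun r => ?_, ?_⟩
  · rw [hf r]
    exact (s r).2
  · have := hf 0
    rw [pow_zero, inv_one] at this
    exact this

/-- (V1).  [`≤`: `f 1 = l ^ n • f (π ^ n)⁻¹`, `apply_mem_torInf`.  `≥`: `exists_mem_sub_of_div` for
`dv l H` (`dv_div`), `sub_mono (dv_le H)`.] -/
theorem img_sub (hfin : {x : J | l • x = 0}.Finite) (H : AddSubgroup J) :
    img (sub l H) = dv l H := by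
  apply le_antisymm
  · rintro x ⟨f, hf, rfl⟩
    refine ⟨apply_mem_torInf f 1, fun n => ⟨f (((l : ℚ_[l]) ^ n)⁻¹), hf _, ?_⟩⟩
    have hl : (l : ℚ_[l]) ≠ 0 := by exact_mod_cast (Fact.out : l.Prime).ne_zero
    rw [ev_apply, ← pow_mul_apply, mul_inv_cancel₀ (pow_ne_zero n hl)]
  · intro x hx
    obtain ⟨f, hf, hf1⟩ := exists_mem_sub_of_div (dv_div hfin H) hx hx.1
    exact ⟨f, sub_mono (dv_le H) hf, hf1⟩

theorem img_sub_of_div {H : AddSubgroup J} (hH : H ≤ torInf J l)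
    (hdiv : ∀ x ∈ H, ∃ z ∈ H, l • z = x) : img (sub l H) = H := by
  apply le_antisymm (img_sub_le H)
  intro x hx
  obtain ⟨f, hf, hf1⟩ := exists_mem_sub_of_div hdiv hx (hH hx)
  exact ⟨f, hf, hf1⟩

/-- [if `f ≠ 0` then `f x ≠ 0` for some `x`, and `f x ∈ img U`.] -/
theorem img_eq_bot_iff (U : Submodule ℚ_[l] (VV J l)) : img U = ⊥ ↔ U = ⊥ := by
  constructor
  · intro h
    rw [eq_bot_iff]
    intro f hf
    rw [Submodule.mem_bot]
    ext x
    have := apply_mem_img hf x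
    rw [h, AddSubgroup.mem_bot] at this
    exact this
  · rintro rfl
    rw [eq_bot_iff]
    rintro x ⟨f, hf, rfl⟩
    rw [SetLike.mem_coe, Submodule.mem_toAddSubgroup, Submodule.mem_bot] at hf
    rw [hf]
    exact AddSubgroup.zero_mem _

/-- [`img_eq_bot_iff`, `img_sub`, `dv_eq_bot_iff`.] -/
theorem sub_eq_bot_iff (hfin : {x : J | l • x = 0}.Finite) (H : AddSubgroup J) :
    sub l H = ⊥ ↔ ((H ⊓ torInf J l : AddSubgroup J) : Set J).Finite := by
  rw [← img_eq_bot_iff, img_sub hfin, dv_eq_bot_iff hfin]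

theorem sub_inf (H H' : AddSubgroup J) : sub l (H ⊓ H') = sub l H ⊓ sub l H' := by
  ext f
  rw [Submodule.mem_inf, mem_sub, mem_sub, mem_sub]
  exact ⟨fun h => ⟨fun x => (h x).1, fun x => (h x).2⟩, fun h x => ⟨h.1 x, h.2 x⟩⟩

theorem img_sup (U U' : Submodule ℚ_[l] (VV J l)) : img (U ⊔ U') = img U ⊔ img U' := by
  apply le_antisymm
  · rintro x ⟨f, hf, rfl⟩
    obtain ⟨g, hg, h, hh, rfl⟩ := Submodule.mem_sup.1 hf
    rw [map_add]
    exact AddSubgroup.add_mem _ (AddSubgroup.mem_sup_left ⟨g, hg, rfl⟩)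
      (AddSubgroup.mem_sup_right ⟨h, hh, rfl⟩)
  · exact sup_le (img_mono le_sup_left) (img_mono le_sup_right)

theorem sub_torInf : sub l (torInf J l) = ⊤ := by
  rw [eq_top_iff]
  intro f _ x
  exact apply_mem_torInf f x

theorem img_top (hdiv : ∀ x ∈ torInf J l, ∃ z : J, l • z = x) :
    img (⊤ : Submodule ℚ_[l] (VV J l)) = torInf J l := by
  rw [← sub_torInf]
  refine img_sub_of_div le_rfl fun x hx => ?_
  obtain ⟨z, hz⟩ := hdiv x hx
  obtain ⟨r, hr⟩ := hx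
  exact ⟨z, ⟨r + 1, by rw [pow_succ, mul_smul, hz, hr]⟩, hz⟩

end Fermat.Agent.S15.V
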