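import Fermat.Agent.S15.Abs.V.Defs

/-!
# S15 ABS-V, file `Complete`: limits in `ℤ_l` (Mathlib only)
-/

set_option autoImplicit false

noncomputable section

namespace Fermat.Agent.S15.V

open Fermat.Agent.S15

variable {J : Type} [AddCommGroup J] {l : ℕ} [Fact l.Prime]

/-- [`IsAdicComplete (maximalIdeal ℤ_[l]) ℤ_[l]` is an instance; `IsPrecomplete.prec'`;
`PadicInt.maximalIdeal_eq_span_p`, `Ideal.span_singleton_pow`, `SModEq.sub_mem`.
From `hs`: `s m ≡ s n mod l ^ m` for `m ≤ n` by induction.] -/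
theorem exists_padicInt_of_seq (s : ℕ → ℕ) (hs : ∀ m, s (m + 1) ≡ s m [MOD l ^ m]) :
    ∃ a : ℤ_[l], ∀ m, a - (s m : ℤ_[l]) ∈ Ideal.span {(l : ℤ_[l]) ^ m} := by
  have key : ∀ m n, m ≤ n → s n ≡ s m [MOD l ^ m] := by
    intro m n hmn
    induction n, hmn using Nat.le_induction with
    | base => rfl
    | succ n hmn ih => exact ((hs n).of_dvd (pow_dvd_pow l hmn)).trans ih
  have hI : ∀ m : ℕ, (IsLocalRing.maximalIdeal ℤ_[l] ^ m • ⊤ : Submodule ℤ_[l] ℤ_[l]) =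
      Ideal.span {(l : ℤ_[l]) ^ m} := by
    intro m
    rw [smul_eq_mul, Ideal.mul_top, PadicInt.maximalIdeal_eq_span_p, Ideal.span_singleton_pow]
  have hpre : IsPrecomplete (IsLocalRing.maximalIdeal ℤ_[l]) ℤ_[l] := inferInstance
  obtain ⟨a, ha⟩ := hpre.prec' (fun m => (s m : ℤ_[l])) (by
    intro m n hmn
    rw [SModEq.sub_mem, hI, Ideal.mem_span_singleton]
    obtain ⟨c, hc⟩ := (Nat.modEq_iff_dvd.1 (key m n hmn))
    refine ⟨(c : ℤ_[l]), ?_⟩
    have h2 := congrArg (Int.cast : ℤ → ℤ_[l]) hc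
    push_cast at h2
    exact h2)
  refine ⟨a, fun m => ?_⟩
  have h1 := ha m
  rw [SModEq.sub_mem, hI] at h1
  have h2 := (Ideal.span {(l : ℤ_[l]) ^ m}).neg_mem h1
  rwa [neg_sub] at h2

/-- the same for finitely many sequences. -/
theorem exists_padicInt_of_seq' {n : ℕ} (s : ℕ → Fin n → ℕ)
    (hs : ∀ m i, s (m + 1) i ≡ s m i [MOD l ^ m]) :
    ∃ a : Fin n → ℤ_[l], ∀ m i, a i - (s m i : ℤ_[l]) ∈ Ideal.span {(l : ℤ_[l]) ^ m} := by
  choose a ha using fun i => exists_padicInt_of_seq (fun m => s m i) (fun m => hs m i)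
  exact ⟨a, fun m i => ha i m⟩

end Fermat.Agent.S15.V
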