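import Fermat.Agent.S15.Abs.V.Basic
import Fermat.Agent.S15.Abs.V.Complete

/-!
# S15 ABS-V, file `Span`: generation mod `l` implies generation over `ℚ_l` (successive approximation)
-/

set_option autoImplicit false

noncomputable section

namespace Fermat.Agent.S15.V

open Fermat.Agent.S15

variable {J : Type} [AddCommGroup J] {l : ℕ} [Fact l.Prime]

/-- evaluation at `x` as an additive map. -/
def Span_evAt (x : ℚ_[l]) : VV J l →+ J where
  toFun f := f x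
  map_zero' := rfl
  map_add' _ _ := rfl

theorem Span_sum_apply {ι : Type*} (s : Finset ι) (g : ι → VV J l) (x : ℚ_[l]) :
    (∑ i ∈ s, g i) x = ∑ i ∈ s, g i x := map_sum (Span_evAt x) g s

theorem Span_nsmul_apply (n : ℕ) (g : VV J l) (x : ℚ_[l]) : (n • g) x = n • g x :=
  map_nsmul (Span_evAt x) n g

theorem Span_l_ne_zero : (l : ℚ_[l]) ≠ 0 := by exact_mod_cast (Fact.out : l.Prime).ne_zero

/-- one step.  [`x := g π⁻¹ = (π⁻¹ • g) 1 ∈ img U`, `l • x = g 1 = 0`; `c` from `hspan`;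
`h := g - ∑ c i • f i ∈ U`, `h π⁻¹ = 0`; `g' := π⁻¹ • h`.] -/
theorem span_step (U : Submodule ℚ_[l] (VV J l)) {n : ℕ} (f : Fin n → VV J l)
    (hU : ∀ i, f i ∈ U) (h1 : ∀ i, f i 1 = 0)
    (hspan : ∀ x ∈ img U, l • x = 0 → ∃ c : Fin n → ℕ, x = ∑ i, c i • f i ((l : ℚ_[l])⁻¹))
    (g : VV J l) (hg : g ∈ U) (hg1 : g 1 = 0) :
    ∃ (c : Fin n → ℕ) (g' : VV J l), g' ∈ U ∧ g' 1 = 0 ∧
      g = ∑ i, c i • f i + (l : ℚ_[l]) • g' := by
  have hl0 := Span_l_ne_zero (l := l)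
  have hx1 : g ((l : ℚ_[l])⁻¹) ∈ img U :=
    ⟨(l : ℚ_[l])⁻¹ • g, U.smul_mem _ hg, by show ((l : ℚ_[l])⁻¹ • g) 1 = _; rw [smul_apply, mul_one]⟩
  have hx2 : l • g ((l : ℚ_[l])⁻¹) = 0 := by
    rw [← natCast_mul_apply, mul_inv_cancel₀ hl0, hg1]
  obtain ⟨c, hc⟩ := hspan _ hx1 hx2
  refine ⟨c, (l : ℚ_[l])⁻¹ • (g - ∑ i, c i • f i), ?_, ?_, ?_⟩
  · exact U.smul_mem _ (U.sub_mem hg (U.sum_mem fun i _ => U.nsmul_mem (hU i) _))
  · rw [smul_apply, mul_one, sub_apply, hc, Span_sum_apply, sub_eq_zero]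
    exact Finset.sum_congr rfl fun i _ => (Span_nsmul_apply _ _ _).symm
  · rw [smul_smul, mul_inv_cancel₀ hl0, one_smul, add_sub_cancel]

/-- iteration.  [recursion on `m` with `span_step` (choose functions `c`, `g'` on the subtype
`{g // g ∈ U ∧ g 1 = 0}`), `s (m+1) i = s m i + l ^ m * c_m i`.] -/
theorem span_iter (U : Submodule ℚ_[l] (VV J l)) {n : ℕ} (f : Fin n → VV J l)
    (hU : ∀ i, f i ∈ U) (h1 : ∀ i, f i 1 = 0)
    (hspan : ∀ x ∈ img U, l • x = 0 → ∃ c : Fin n → ℕ, x = ∑ i, c i • f i ((l : ℚ_[l])⁻¹))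
    (g : VV J l) (hg : g ∈ U) (hg1 : g 1 = 0) :
    ∃ (s : ℕ → Fin n → ℕ) (G : ℕ → VV J l), (∀ m i, s (m + 1) i ≡ s m i [MOD l ^ m]) ∧
      (∀ m, G m 1 = 0) ∧ ∀ m, g = ∑ i, s m i • f i + (l : ℚ_[l]) ^ m • G m := by
  have hstep : ∀ g : VV J l, g ∈ U ∧ g 1 = 0 → ∃ (c : Fin n → ℕ) (g' : VV J l),
      (g' ∈ U ∧ g' 1 = 0) ∧ g = ∑ i, c i • f i + (l : ℚ_[l]) • g' := by
    intro g hg
    obtain ⟨c, g', h2, h3, h4⟩ := span_step U f hU h1 hspan g hg.1 hg.2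
    exact ⟨c, g', ⟨h2, h3⟩, h4⟩
  choose! c g' hg' hdec using hstep
  set G : ℕ → VV J l := fun m => g'^[m] g with hGdef
  have hGs : ∀ m, G (m + 1) = g' (G m) := fun m => Function.iterate_succ_apply' g' m g
  have hG : ∀ m, G m ∈ U ∧ G m 1 = 0 := by
    intro m
    induction m with
    | zero => exact ⟨hg, hg1⟩
    | succ m ih => rw [hGs]; exact hg' _ ih
  set s : ℕ → Fin n → ℕ := fun m i => ∑ k ∈ Finset.range m, l ^ k * c (G k) i with hsdef
  have hss : ∀ m i, s (m + 1) i = s m i + l ^ m * c (G m) i :=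
    fun m i => Finset.sum_range_succ _ m
  refine ⟨s, G, fun m i => ?_, fun m => (hG m).2, fun m => ?_⟩
  · rw [hss]
    exact Nat.add_mul_mod_self_left _ _ _
  · induction m with
    | zero =>
      have : ∀ i, s 0 i = 0 := fun i => rfl
      simp only [this, zero_smul, Finset.sum_const_zero, pow_zero, one_smul, zero_add]
      rfl
    | succ m ih =>
      have e1 : (l : ℚ_[l]) ^ m • G m =
          ∑ i, (l ^ m * c (G m) i) • f i + (l : ℚ_[l]) ^ (m + 1) • G (m + 1) := by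
        conv_lhs => rw [hdec (G m) (hG m)]
        rw [smul_add, smul_smul, ← pow_succ, hGs, Finset.smul_sum]
        congr 1
        refine Finset.sum_congr rfl fun i _ => ?_
        rw [mul_smul, ← natCast_smul (l ^ m)]
        push_cast
        rfl
      conv_lhs => rw [ih, e1]
      rw [← add_assoc, ← Finset.sum_add_distrib]
      congr 1
      refine Finset.sum_congr rfl fun i _ => ?_
      rw [hss, add_smul]

/-- [`s, G` from `span_iter`, `a` from `exists_padicInt_of_seq'`.  `h := g - ∑ (a i : ℚ_[l]) • f i`.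
For every `m`: `a i - s m i = l ^ m * b i` in `ℤ_l`, so `h = π ^ m • (G m - ∑ (b i : ℚ_[l]) • f i)` and
`h (π ^ m)⁻¹ = G m 1 - ∑ f i (b i) = 0` (`f i (b i * 1) = k • f i 1 = 0`: `exists_apply_padicInt_mul`).
`ext_of_inv_pow`: `h = 0`.] -/
theorem mem_span_of_ev_eq_zero (U : Submodule ℚ_[l] (VV J l)) {n : ℕ} (f : Fin n → VV J l)
    (hU : ∀ i, f i ∈ U) (h1 : ∀ i, f i 1 = 0)
    (hspan : ∀ x ∈ img U, l • x = 0 → ∃ c : Fin n → ℕ, x = ∑ i, c i • f i ((l : ℚ_[l])⁻¹))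
    (g : VV J l) (hg : g ∈ U) (hg1 : g 1 = 0) : g ∈ Submodule.span ℚ_[l] (Set.range f) := by
  have hl0 := Span_l_ne_zero (l := l)
  obtain ⟨s, G, hs, hG1, hdec⟩ := span_iter U f hU h1 hspan g hg hg1
  obtain ⟨a, ha⟩ := exists_padicInt_of_seq' s hs
  have key : g = ∑ i, ((a i : ℤ_[l]) : ℚ_[l]) • f i := by
    apply ext_of_inv_pow
    intro m
    have hpm : (l : ℚ_[l]) ^ m * ((l : ℚ_[l]) ^ m)⁻¹ = 1 := mul_inv_cancel₀ (pow_ne_zero m hl0)
    conv_lhs => rw [hdec m]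
    rw [add_apply, smul_apply, hpm, hG1, add_zero, Span_sum_apply, Span_sum_apply]
    refine Finset.sum_congr rfl fun i _ => ?_
    rw [Span_nsmul_apply, smul_apply]
    refine (apply_padicInt_mul (f i) _ ?_ (a i) (s m i) (ha m i)).symm
    rw [← pow_mul_apply, hpm, h1]
  rw [key]
  exact Submodule.sum_mem _ fun i _ => Submodule.smul_mem _ _ (Submodule.subset_span ⟨i, rfl⟩)

/-- [`(π ^ k • g) 1 = g (π ^ k) = 0` for `k` from `VV.kill`; `π ^ k` is invertible.] -/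
theorem le_span_of_mod (U : Submodule ℚ_[l] (VV J l)) {n : ℕ} (f : Fin n → VV J l)
    (hU : ∀ i, f i ∈ U) (h1 : ∀ i, f i 1 = 0)
    (hspan : ∀ x ∈ img U, l • x = 0 → ∃ c : Fin n → ℕ, x = ∑ i, c i • f i ((l : ℚ_[l])⁻¹)) :
    U ≤ Submodule.span ℚ_[l] (Set.range f) := by
  intro g hg
  have hl0 := Span_l_ne_zero (l := l)
  obtain ⟨k, hk⟩ := g.kill
  have h2 : ((l : ℚ_[l]) ^ k • g) 1 = 0 := by
    rw [smul_apply]
    have := hk 1
    rwa [PadicInt.coe_one] at this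
  have h3 := mem_span_of_ev_eq_zero U f hU h1 hspan _ (U.smul_mem ((l : ℚ_[l]) ^ k) hg) h2
  have h4 := Submodule.smul_mem _ ((l : ℚ_[l]) ^ k)⁻¹ h3
  rwa [smul_smul, inv_mul_cancel₀ (pow_ne_zero k hl0), one_smul] at h4

end Fermat.Agent.S15.V
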