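import Fermat.Agent.S15.Abs.V.LinInd
import Fermat.Agent.S15.Abs.V.Span
import Fermat.Agent.S15.Abs.V.Img
import Fermat.Agent.S15.Abs.V.DvCard

/-!
# S15 ABS-V, file `Card`: (V2), (V3) dimension = corank
-/

set_option autoImplicit false

noncomputable section

namespace Fermat.Agent.S15.V

open Fermat.Agent.S15

variable {J : Type} [AddCommGroup J] {l : ℕ} [Fact l.Prime]

theorem Card_aux0 (D : Type) [AddCommGroup D] [Module (ZMod l) D] [Finite D] :
    ∃ (n : ℕ) (e : Fin n → D), (∀ c : Fin n → ℕ, ∑ i, c i • e i = 0 → ∀ i, l ∣ c i) ∧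
      (∀ x, ∃ c : Fin n → ℕ, x = ∑ i, c i • e i) ∧ Nat.card D = l ^ n := by
  classical
  have inst2 : Module.Finite (ZMod l) D := Module.Finite.of_finite
  have hcard : Nat.card D = l ^ Module.finrank (ZMod l) D := by
    rw [Module.natCard_eq_pow_finrank (K := ZMod l) (V := D), Nat.card_zmod]
  have e := Module.finBasis (ZMod l) D
  refine ⟨_, ⇑e, ?_, ?_, hcard⟩
  · intro c hc i
    have h0 : ∑ i, (c i : ZMod l) • e i = 0 := by
      rw [← hc]
      exact Finset.sum_congr rfl fun i _ => Nat.cast_smul_eq_nsmul _ _ _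
    have := Fintype.linearIndependent_iff.1 e.linearIndependent _ h0 i
    exact (ZMod.natCast_eq_zero_iff _ _).1 this
  · intro x
    refine ⟨fun i => (e.repr x i).val, ?_⟩
    conv_lhs => rw [← e.sum_repr x]
    refine Finset.sum_congr rfl fun i _ => ?_
    rw [← Nat.cast_smul_eq_nsmul (ZMod l), ZMod.natCast_zmod_val]

theorem Card_aux (D : Type) [AddCommGroup D] [Finite D] (hkill : ∀ x : D, l • x = 0) :
    ∃ (n : ℕ) (e : Fin n → D), (∀ c : Fin n → ℕ, ∑ i, c i • e i = 0 → ∀ i, l ∣ c i) ∧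
      (∀ x, ∃ c : Fin n → ℕ, x = ∑ i, c i • e i) ∧ Nat.card D = l ^ n :=
  @Card_aux0 l _ D _ (AddCommGroup.zmodModule hkill) _

/-- [`D₁ := img U ⊓ tor J l 1` is finite and killed by `l`: a `ZMod l`-vector space
(`AddCommGroup.zmodModule`); `e : Fin n → D₁` a basis (`Module.finBasis`),
`Nat.card D₁ = l ^ n` (`Module.card_eq_pow_finrank` / `card_eq_pow_finrank`).  Choose `g i ∈ U`, `g i 1 = e i`,
`f i := π • g i`: `f i π⁻¹ = e i`, `f i 1 = l • e i = 0`.  For `c : Fin n → ℕ`:
`∑ c i • e i = ∑ (c i : ZMod l) • e i`.] -/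
theorem exists_family (hfin : {x : J | l • x = 0}.Finite) (U : Submodule ℚ_[l] (VV J l)) :
    ∃ (n : ℕ) (f : Fin n → VV J l), (∀ i, f i ∈ U) ∧ (∀ i, f i 1 = 0) ∧
      (∀ c : Fin n → ℕ, ∑ i, c i • f i ((l : ℚ_[l])⁻¹) = 0 → ∀ i, l ∣ c i) ∧
      (∀ x ∈ img U, l • x = 0 → ∃ c : Fin n → ℕ, x = ∑ i, c i • f i ((l : ℚ_[l])⁻¹)) ∧
      Nat.card (img U ⊓ tor J l 1 : AddSubgroup J) = l ^ n := by
  classical
  have hl : (l : ℚ_[l]) ≠ 0 := by exact_mod_cast (Fact.out : l.Prime).ne_zero
  have hmem : ∀ x : J, x ∈ (img U ⊓ tor J l 1 : AddSubgroup J) → l • x = 0 := by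
    intro x hx
    have h : l ^ 1 • x = 0 := hx.2
    rwa [pow_one] at h
  have hkill : ∀ x : (img U ⊓ tor J l 1 : AddSubgroup J), l • x = 0 := by
    intro x
    apply Subtype.ext
    simpa using hmem x x.2
  have hfinD : Finite (img U ⊓ tor J l 1 : AddSubgroup J) :=
    Set.Finite.to_subtype (hfin.subset fun x hx => hmem x hx)
  obtain ⟨n, e, hind, hspan, hcard⟩ := Card_aux (l := l) _ hkill
  choose g hg hg1 using fun i => (e i).2.1
  have hval : ∀ i, ((l : ℚ_[l]) • g i) ((l : ℚ_[l])⁻¹) = (e i : J) := by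
    intro i
    rw [smul_apply, mul_inv_cancel₀ hl]
    exact hg1 i
  have hsum : ∀ c : Fin n → ℕ, ∑ i, c i • ((l : ℚ_[l]) • g i) ((l : ℚ_[l])⁻¹) =
      ((∑ i, c i • e i : (img U ⊓ tor J l 1 : AddSubgroup J)) : J) := by
    intro c
    rw [AddSubgroup.val_finsetSum]
    refine Finset.sum_congr rfl fun i _ => ?_
    rw [hval]
    rfl
  refine ⟨n, fun i => (l : ℚ_[l]) • g i, fun i => U.smul_mem _ (hg i), fun i => ?_, ?_, ?_, hcard⟩
  · rw [smul_apply, natCast_mul_apply]
    have h1 : g i 1 = (e i : J) := hg1 i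
    rw [h1]
    exact hmem _ (e i).2
  · intro c hc i
    rw [hsum] at hc
    exact hind c (Subtype.ext hc) i
  · intro x hx hlx
    have hxD : x ∈ (img U ⊓ tor J l 1 : AddSubgroup J) :=
      ⟨hx, show l ^ 1 • x = 0 by rw [pow_one]; exact hlx⟩
    obtain ⟨c, hc⟩ := hspan ⟨x, hxD⟩
    refine ⟨c, ?_⟩
    rw [hsum, ← hc]

/-- [`exists_family`, `linearIndependent_of_mod`, `le_span_of_mod`: `U = span (range f)`,
`finrank_span_eq_card`, `FiniteDimensional.span_of_finite`.] -/
theorem finite_and_card (hfin : {x : J | l • x = 0}.Finite) (U : Submodule ℚ_[l] (VV J l)) :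
    Module.Finite ℚ_[l] U ∧
      Nat.card (img U ⊓ tor J l 1 : AddSubgroup J) = l ^ Module.finrank ℚ_[l] U := by
  obtain ⟨n, f, hU, h1, hind, hspan, hcard⟩ := exists_family hfin U
  have hli := linearIndependent_of_mod f h1 hind
  have hle := le_span_of_mod U f hU h1 hspan
  have heq : U = Submodule.span ℚ_[l] (Set.range f) := by
    apply le_antisymm hle
    rw [Submodule.span_le]
    rintro _ ⟨i, rfl⟩
    exact hU i
  have hfr : Module.finrank ℚ_[l] U = n := by
    rw [heq, finrank_span_eq_card hli, Fintype.card_fin]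
  refine ⟨?_, by rw [hcard, hfr]⟩
  rw [heq]
  exact FiniteDimensional.span_of_finite ℚ_[l] (Set.finite_range f)

/-- (V2) -/
theorem finiteDimensional (hfin : {x : J | l • x = 0}.Finite) :
    FiniteDimensional ℚ_[l] (VV J l) := by
  have := (finite_and_card hfin (⊤ : Submodule ℚ_[l] (VV J l))).1
  exact Module.Finite.equiv (Submodule.topEquiv (R := ℚ_[l]) (M := VV J l))

/-- (V2).  [`finite_and_card`, `card_div` with `img_div`.] -/
theorem card_img (hfin : {x : J | l • x = 0}.Finite) (U : Submodule ℚ_[l] (VV J l)) (r : ℕ) :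
    Nat.card (img U ⊓ tor J l r : AddSubgroup J) = l ^ (r * Module.finrank ℚ_[l] U) := by
  rw [card_div hfin (img U) (img_div U) r, (finite_and_card hfin U).2, ← pow_mul, mul_comm]

/-- (V3).  [`U ≤ U' := sub l (img U)`; `img U' = img U` (`img_sub_le`, `img_mono`), so by
`finite_and_card` the two finranks agree (`Nat.pow_right_injective`);
`Submodule.eq_of_le_of_finrank_eq`.] -/
theorem sub_img (hfin : {x : J | l • x = 0}.Finite) (U : Submodule ℚ_[l] (VV J l)) :
    sub l (img U) = U := by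
  have hfd := finiteDimensional (l := l) hfin
  have hle := le_sub_img U
  have himg : img (sub l (img U)) = img U := le_antisymm (img_sub_le _) (img_mono hle)
  have h1 := (finite_and_card hfin U).2
  have h2 := (finite_and_card hfin (sub l (img U))).2
  rw [himg, h1] at h2
  have h3 := Nat.pow_right_injective (Fact.out : l.Prime).two_le h2
  exact (Submodule.eq_of_le_of_finrank_eq hle h3).symm

theorem card_dv (hfin : {x : J | l • x = 0}.Finite) (H : AddSubgroup J) (r : ℕ) :
    Nat.card (dv l H ⊓ tor J l r : AddSubgroup J) = l ^ (r * Module.finrank ℚ_[l] (sub l H)) := by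
  rw [← img_sub hfin H, card_img hfin]

/-- for a divisible subgroup of `J[l^∞]`. -/
theorem card_of_div (hfin : {x : J | l • x = 0}.Finite) {H : AddSubgroup J} (hH : H ≤ torInf J l)
    (hdiv : ∀ x ∈ H, ∃ z ∈ H, l • z = x) (r : ℕ) :
    Nat.card (H ⊓ tor J l r : AddSubgroup J) = l ^ (r * Module.finrank ℚ_[l] (sub l H)) := by
  have := card_dv hfin H r
  rwa [dv_eq_of_div hH hdiv] at this

/-- `img` is injective and reflects the order. -/
theorem img_le_img_iff (hfin : {x : J | l • x = 0}.Finite) {U U' : Submodule ℚ_[l] (VV J l)} :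
    img U ≤ img U' ↔ U ≤ U' := by
  constructor
  · intro h
    rw [← sub_img hfin U, ← sub_img hfin U']
    exact sub_mono h
  · exact img_mono

end Fermat.Agent.S15.V
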