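import Fermat.Agent.S15.Abs.V.Basic

/-!
# S15 ABS-V, file `Construct`: from compatible sequences to elements of `VV J l`

Let `x : ℕ → J`, `l • x (r+1) = x r`, `l ^ k • x 0 = 0`; then `l ^ (k + r) • x r = 0`.
`g r : ℤ_[l] →+ J` := `(ZMod.lift (l ^ (k + r)) ⟨zmultiplesHom J (x r), _⟩).comp
(PadicInt.toZModPow (k + r)).toAddMonoidHom`.  So `g r n = n • x r` for `n : ℕ` and `g r` kills
`l ^ (k + r) ℤ_l` (`PadicInt.ker_toZModPow`).  Compatibility `g (r+1) (l * y) = g r y`: write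
`y = n + l ^ (k + r) z` (`PadicInt.appr_spec`).  Hence `g (r + s) (l ^ s * y) = g r y`.
`F a := g r ⟨π ^ r * a, _⟩` for any `r` with `‖π ^ r * a‖ ≤ 1` (e.g. the `j` of `exists_pow_mul_eq`, by choice);
independent of `r`; additive (common `r` for `a, b, a + b`); kills `π ^ k ℤ_l` (`r = 0`);
`F (π ^ r)⁻¹ = g r 1 = x r`.

IMPLEMENTATION: the graph of `F` is described by the relation `Construct_At x k a y j`
(`π ^ j * a = b ∈ ℤ_l`, `b ≡ n mod l ^ (k + j)`, `y = n • x j`).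
-/

set_option autoImplicit false

noncomputable section

namespace Fermat.Agent.S15.V

open Fermat.Agent.S15

variable {J : Type} [AddCommGroup J] {l : ℕ} [Fact l.Prime]

/-- `y` is the value at `a`, computed at level `j`. -/
def Construct_At (x : ℕ → J) (k : ℕ) (a : ℚ_[l]) (y : J) (j : ℕ) : Prop :=
  ∃ (b : ℤ_[l]) (n : ℕ), (l : ℚ_[l]) ^ j * a = b ∧
    b - (n : ℤ_[l]) ∈ Ideal.span {(l : ℤ_[l]) ^ (k + j)} ∧ y = n • x j

omit [Fact l.Prime] in
theorem Construct_kill {x : ℕ → J} (hx : ∀ r, l • x (r + 1) = x r) {k : ℕ}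
    (hk : l ^ k • x 0 = 0) (j : ℕ) : l ^ (k + j) • x j = 0 := by
  induction j with
  | zero => simpa using hk
  | succ j ih => rw [← add_assoc, pow_succ, mul_smul, hx, ih]

theorem Construct_At.succ {x : ℕ → J} (hx : ∀ r, l • x (r + 1) = x r) {k : ℕ} {a : ℚ_[l]} {y : J}
    {j : ℕ} (h : Construct_At x k a y j) : Construct_At x k a y (j + 1) := by
  obtain ⟨b, n, h1, h2, h3⟩ := h
  refine ⟨(l : ℤ_[l]) * b, l * n, ?_, ?_, ?_⟩
  · push_cast
    rw [← h1]
    ring
  · rw [Ideal.mem_span_singleton] at h2 ⊢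
    obtain ⟨c, hc⟩ := h2
    refine ⟨c, ?_⟩
    push_cast
    rw [← mul_sub, hc, ← add_assoc, pow_succ]
    ring
  · rw [h3, mul_comm, mul_smul, hx]

theorem Construct_At.mono {x : ℕ → J} (hx : ∀ r, l • x (r + 1) = x r) {k : ℕ} {a : ℚ_[l]} {y : J}
    {j j' : ℕ} (hjj : j ≤ j') (h : Construct_At x k a y j) : Construct_At x k a y j' := by
  induction j', hjj using Nat.le_induction with
  | base => exact h
  | succ n _ ih => exact ih.succ hx

theorem Construct_At.unique {x : ℕ → J} (hx : ∀ r, l • x (r + 1) = x r) {k : ℕ}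
    (hk : l ^ k • x 0 = 0) {a : ℚ_[l]} {y y' : J} {j : ℕ}
    (h : Construct_At x k a y j) (h' : Construct_At x k a y' j) : y = y' := by
  obtain ⟨b, n, h1, h2, h3⟩ := h
  obtain ⟨b', n', h1', h2', h3'⟩ := h'
  have hb : b = b' := by
    apply Subtype.ext
    rw [← h1, ← h1']
  subst hb
  have h4 : ((n' : ℤ_[l]) - (n : ℤ_[l])) ∈ Ideal.span {(l : ℤ_[l]) ^ (k + j)} := by
    have := (Ideal.span {(l : ℤ_[l]) ^ (k + j)}).sub_mem h2 h2'
    have e : b - (n : ℤ_[l]) - (b - (n' : ℤ_[l])) = (n' : ℤ_[l]) - (n : ℤ_[l]) := by ring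
    rwa [e] at this
  rw [Ideal.mem_span_singleton] at h4
  have h5 : ((l : ℤ) ^ (k + j)) ∣ ((n' : ℤ) - (n : ℤ)) := by
    rw [← PadicInt.pow_p_dvd_int_iff]
    push_cast
    exact h4
  obtain ⟨c, hc⟩ := h5
  have h6 : ((n' : ℤ) - (n : ℤ)) • x j = 0 := by
    rw [hc, mul_comm, mul_smul]
    have : ((l : ℤ) ^ (k + j)) • x j = 0 := by
      have := Construct_kill hx hk j
      rw [← natCast_zsmul] at this
      push_cast at this
      exact this
    rw [this, smul_zero]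
  rw [sub_smul, natCast_zsmul, natCast_zsmul, sub_eq_zero] at h6
  rw [h3, h3', h6]

theorem Construct_At.add {x : ℕ → J} {k : ℕ} {a a' : ℚ_[l]} {y y' : J} {j : ℕ}
    (h : Construct_At x k a y j) (h' : Construct_At x k a' y' j) :
    Construct_At x k (a + a') (y + y') j := by
  obtain ⟨b, n, h1, h2, h3⟩ := h
  obtain ⟨b', n', h1', h2', h3'⟩ := h'
  refine ⟨b + b', n + n', ?_, ?_, ?_⟩
  · push_cast
    rw [mul_add, h1, h1']
  · have := (Ideal.span {(l : ℤ_[l]) ^ (k + j)}).add_mem h2 h2'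
    have e : b - (n : ℤ_[l]) + (b' - (n' : ℤ_[l])) = b + b' - ((n + n' : ℕ) : ℤ_[l]) := by
      push_cast; ring
    rwa [e] at this
  · rw [h3, h3', add_smul]

theorem Construct_exists (x : ℕ → J) (k : ℕ) (a : ℚ_[l]) : ∃ y j, Construct_At x k a y j := by
  obtain ⟨j, b, hb⟩ := exists_pow_mul_eq a
  exact ⟨_, j, b, b.appr (k + j), hb, PadicInt.appr_spec (k + j) b, rfl⟩

theorem exists_of_seq (x : ℕ → J) (hx : ∀ r, l • x (r + 1) = x r) (h0 : x 0 ∈ torInf J l) :
    ∃ f : VV J l, ∀ r : ℕ, f (((l : ℚ_[l]) ^ r)⁻¹) = x r := by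
  obtain ⟨k, hk⟩ := h0
  choose F jF hF using Construct_exists (l := l) x k
  -- characterisation of `F`
  have huniq : ∀ (a : ℚ_[l]) (y : J) (j : ℕ), Construct_At x k a y j → F a = y := by
    intro a y j h
    exact ((hF a).mono hx (le_max_left (jF a) j)).unique hx hk (h.mono hx (le_max_right (jF a) j))
  have hl0 : (l : ℚ_[l]) ≠ 0 := by exact_mod_cast (Fact.out : l.Prime).ne_zero
  let f0 : ℚ_[l] →+ J :=
    { toFun := F
      map_zero' := huniq 0 0 0 ⟨0, 0, by simp, by simp, by simp⟩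
      map_add' := by
        intro a a'
        set m := max (jF a) (jF a') with hm
        exact huniq _ _ m (((hF a).mono hx (le_max_left _ _)).add
          ((hF a').mono hx (le_max_right _ _))) }
  refine ⟨⟨f0, k, fun y => ?_⟩, fun r => ?_⟩
  · refine huniq _ _ 0 ⟨(l : ℤ_[l]) ^ k * y, 0, by push_cast; ring, ?_, by simp⟩
    rw [Nat.cast_zero, sub_zero, add_zero, Ideal.mem_span_singleton]
    exact Dvd.intro _ rfl
  · refine huniq _ _ r ⟨1, 1, ?_, by simp, by simp⟩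
    rw [mul_inv_cancel₀ (pow_ne_zero r hl0)]
    simp

end Fermat.Agent.S15.V
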