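import Fermat.Agent.S15.Abs.Defs

/-!
# S15 ABS-V : the `ℚ_l`-vector space `V(J) = Hom_cont(ℚ_l, J)` of an abelian group `J`

`J` is any abelian group (discrete), `l` a prime.  `VV J l` is the group of additive maps
`f : ℚ_l → J` which kill `l ^ k ℤ_l` for some `k`.  `ℚ_l` acts by `(a • f) x = f (a * x)`.
The compatible sequence attached to `f` is `r ↦ f (l ^ r)⁻¹`, `ev f = f 1`.

* `sub l H` (`H` a subgroup of `J`) : the subspace of the `f` with values in `H`;
* `img U` (`U` a subspace) : the subgroup `{f 1 | f ∈ U}` of `J`;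
* `map l φ` (`φ : J →+ J'`) : composition with `φ`;
* `dv l H` : the `l`-power torsion elements of `H` which are infinitely `l`-divisible in `H`.
-/

set_option autoImplicit false

noncomputable section

namespace Fermat.Agent.S15.V

open Fermat.Agent.S15

variable (J : Type) [AddCommGroup J] (l : ℕ) [Fact l.Prime]

/-- the additive maps `ℚ_l → J` which kill an open subgroup. -/
def VVsub : AddSubgroup (ℚ_[l] →+ J) where
  carrier := {f | ∃ k : ℕ, ∀ x : ℤ_[l], f ((l : ℚ_[l]) ^ k * x) = 0}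
  zero_mem' := ⟨0, fun _ => rfl⟩
  add_mem' := by
    rintro f g ⟨k, hk⟩ ⟨m, hm⟩
    refine ⟨k + m, fun x => ?_⟩
    have h1 : (l : ℚ_[l]) ^ (k + m) * x = (l : ℚ_[l]) ^ k * (((l : ℤ_[l]) ^ m * x : ℤ_[l]) : ℚ_[l]) := by
      push_cast; ring
    have h2 : (l : ℚ_[l]) ^ (k + m) * x = (l : ℚ_[l]) ^ m * (((l : ℤ_[l]) ^ k * x : ℤ_[l]) : ℚ_[l]) := by
      push_cast; ring
    rw [AddMonoidHom.add_apply]
    conv_lhs => rw [h1]
    rw [hk, zero_add, ← h1, h2, hm]
  neg_mem' := by
    rintro f ⟨k, hk⟩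
    exact ⟨k, fun x => by rw [AddMonoidHom.neg_apply, hk, neg_zero]⟩

/-- `V(J) = Hom_cont(ℚ_l, J)`. -/
def VV : Type := VVsub J l

instance : AddCommGroup (VV J l) := inferInstanceAs (AddCommGroup (VVsub J l))

instance : FunLike (VV J l) ℚ_[l] J where
  coe f := f.1
  coe_injective := by
    intro f g h
    exact Subtype.ext (DFunLike.coe_injective h)

instance : AddMonoidHomClass (VV J l) ℚ_[l] J where
  map_add f := f.1.map_add
  map_zero f := f.1.map_zero

variable {J l}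

@[ext] theorem VV.ext {f g : VV J l} (h : ∀ x, f x = g x) : f = g := DFunLike.ext f g h

theorem VV.kill (f : VV J l) : ∃ k : ℕ, ∀ x : ℤ_[l], f ((l : ℚ_[l]) ^ k * x) = 0 := f.2

@[simp] theorem add_apply (f g : VV J l) (x : ℚ_[l]) : (f + g) x = f x + g x := rfl
@[simp] theorem zero_apply (x : ℚ_[l]) : (0 : VV J l) x = 0 := rfl
@[simp] theorem neg_apply (f : VV J l) (x : ℚ_[l]) : (-f) x = -f x := rfl
@[simp] theorem sub_apply (f g : VV J l) (x : ℚ_[l]) : (f - g) x = f x - g x := rfl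

/-- every `l`-adic number becomes integral after multiplication by a power of `l`. -/
theorem exists_pow_mul_eq (a : ℚ_[l]) : ∃ (j : ℕ) (b : ℤ_[l]), (l : ℚ_[l]) ^ j * a = b := by
  obtain ⟨j, hj⟩ : ∃ j : ℕ, ‖a‖ ≤ (l : ℝ) ^ j := by
    have h1 : (1 : ℝ) < l := by exact_mod_cast (Fact.out : l.Prime).one_lt
    obtain ⟨j, hj⟩ := pow_unbounded_of_one_lt ‖a‖ h1
    exact ⟨j, hj.le⟩
  refine ⟨j, ⟨(l : ℚ_[l]) ^ j * a, ?_⟩, rfl⟩
  have hl0 : (0 : ℝ) < l := by exact_mod_cast (Fact.out : l.Prime).pos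
  rw [norm_mul, norm_pow, Padic.norm_p, inv_pow]
  rw [inv_mul_le_iff₀ (pow_pos hl0 j), mul_one]
  exact hj

instance : SMul ℚ_[l] (VV J l) where
  smul a f := ⟨(f.1).comp (AddMonoidHom.mulLeft a), by
    obtain ⟨k, hk⟩ := f.2
    obtain ⟨j, b, hb⟩ := exists_pow_mul_eq a
    refine ⟨k + j, fun x => ?_⟩
    have h1 : a * ((l : ℚ_[l]) ^ (k + j) * x) = (l : ℚ_[l]) ^ k * ((b * x : ℤ_[l]) : ℚ_[l]) := by
      push_cast
      rw [← hb]
      ring
    show f.1 (a * ((l : ℚ_[l]) ^ (k + j) * x)) = 0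
    rw [h1]
    exact hk _⟩

@[simp] theorem smul_apply (a : ℚ_[l]) (f : VV J l) (x : ℚ_[l]) : (a • f) x = f (a * x) := rfl

instance : Module ℚ_[l] (VV J l) where
  one_smul f := by ext x; simp
  mul_smul a b f := by
    ext x
    simp only [smul_apply]
    congr 1
    ring
  smul_zero a := by ext x; simp
  smul_add a f g := by ext x; simp
  add_smul a b f := by
    ext x
    simp only [smul_apply, add_apply, add_mul, map_add]
  zero_smul f := by ext x; simp

/-- evaluation at `1`. -/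
def ev : VV J l →+ J where
  toFun f := f 1
  map_zero' := rfl
  map_add' _ _ := rfl

@[simp] theorem ev_apply (f : VV J l) : ev f = f 1 := rfl

variable (l)

/-- the subspace of the `f` with values in `H`. -/
def sub (H : AddSubgroup J) : Submodule ℚ_[l] (VV J l) where
  carrier := {f | ∀ x, f x ∈ H}
  zero_mem' := fun _ => H.zero_mem
  add_mem' := fun hf hg x => H.add_mem (hf x) (hg x)
  smul_mem' := fun a _ hf x => hf (a * x)

variable {l}

theorem mem_sub {H : AddSubgroup J} {f : VV J l} : f ∈ sub l H ↔ ∀ x, f x ∈ H := Iff.rfl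

/-- the subgroup `{f 1 | f ∈ U}`. -/
def img (U : Submodule ℚ_[l] (VV J l)) : AddSubgroup J := U.toAddSubgroup.map ev

theorem mem_img {U : Submodule ℚ_[l] (VV J l)} {x : J} : x ∈ img U ↔ ∃ f ∈ U, f 1 = x := Iff.rfl

variable (l)

/-- functoriality. -/
def map {J' : Type} [AddCommGroup J'] (φ : J →+ J') : VV J l →ₗ[ℚ_[l]] VV J' l where
  toFun f := ⟨φ.comp f.1, by
    obtain ⟨k, hk⟩ := f.2
    exact ⟨k, fun x => by rw [AddMonoidHom.comp_apply, hk, map_zero]⟩⟩
  map_add' f g := by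
    ext x
    exact φ.map_add _ _
  map_smul' a f := rfl

variable {l}

@[simp] theorem map_apply {J' : Type} [AddCommGroup J'] (φ : J →+ J') (f : VV J l) (x : ℚ_[l]) :
    map l φ f x = φ (f x) := rfl

theorem map_id : map l (AddMonoidHom.id J) = LinearMap.id := by
  ext f x; rfl

theorem map_comp {J' J'' : Type} [AddCommGroup J'] [AddCommGroup J''] (ψ : J' →+ J'')
    (φ : J →+ J') : map l (ψ.comp φ) = (map l ψ).comp (map l φ) := by
  ext f x; rfl

theorem map_add' {J' : Type} [AddCommGroup J'] (φ ψ : J →+ J') :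
    map l (φ + ψ) = map l φ + map l ψ := by
  ext f x; rfl

theorem map_zero' {J' : Type} [AddCommGroup J'] : map l (0 : J →+ J') = 0 := by
  ext f x; rfl

theorem map_neg' {J' : Type} [AddCommGroup J'] (φ : J →+ J') : map l (-φ) = -map l φ := by
  ext f x; rfl

theorem map_sub' {J' : Type} [AddCommGroup J'] (φ ψ : J →+ J') :
    map l (φ - ψ) = map l φ - map l ψ := by
  ext f x; rfl

variable (J l)

/-- `End(J) → End(V(J))` as a ring homomorphism. -/
def mapEnd : AddMonoid.End J →+* Module.End ℚ_[l] (VV J l) where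
  toFun φ := map l φ
  map_one' := map_id
  map_mul' φ ψ := map_comp φ ψ
  map_zero' := map_zero'
  map_add' φ ψ := map_add' φ ψ

/-- the representation of a group acting on `J`. -/
def rep (Γ : Type) [Group Γ] [DistribMulAction Γ J] : Γ →* Module.End ℚ_[l] (VV J l) where
  toFun g := map l (DistribSMul.toAddMonoidHom J g)
  map_one' := by
    ext f x
    exact one_smul Γ (f x)
  map_mul' g h := by
    ext f x
    exact mul_smul g h (f x)

variable {J l}

@[simp] theorem rep_apply {Γ : Type} [Group Γ] [DistribMulAction Γ J] (g : Γ) (f : VV J l)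
    (x : ℚ_[l]) : rep J l Γ g f x = g • f x := rfl

variable (l)

/-- the `l`-power torsion elements of `H` which are infinitely `l`-divisible in `H`. -/
def dv (H : AddSubgroup J) : AddSubgroup J where
  carrier := {x | x ∈ torInf J l ∧ ∀ n : ℕ, ∃ y ∈ H, l ^ n • y = x}
  zero_mem' := ⟨(torInf J l).zero_mem, fun n => ⟨0, H.zero_mem, smul_zero _⟩⟩
  add_mem' := by
    rintro a b ⟨ha, ha'⟩ ⟨hb, hb'⟩
    refine ⟨(torInf J l).add_mem ha hb, fun n => ?_⟩
    obtain ⟨y, hy, rfl⟩ := ha' n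
    obtain ⟨z, hz, rfl⟩ := hb' n
    exact ⟨y + z, H.add_mem hy hz, smul_add _ _ _⟩
  neg_mem' := by
    rintro a ⟨ha, ha'⟩
    refine ⟨(torInf J l).neg_mem ha, fun n => ?_⟩
    obtain ⟨y, hy, rfl⟩ := ha' n
    exact ⟨-y, H.neg_mem hy, smul_neg _ _⟩

variable {l}

theorem mem_dv {H : AddSubgroup J} {x : J} :
    x ∈ dv l H ↔ x ∈ torInf J l ∧ ∀ n : ℕ, ∃ y ∈ H, l ^ n • y = x := Iff.rfl

end Fermat.Agent.S15.V
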