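import Fermat.Agent.S15.Abs.V.Basic

/-!
# S15 ABS-V, file `LinInd`: independence mod `l` implies linear independence over `ℚ_l`
-/

set_option autoImplicit false

noncomputable section

namespace Fermat.Agent.S15.V

open Fermat.Agent.S15

variable {J : Type} [AddCommGroup J] {l : ℕ} [Fact l.Prime]

/-- [`Fintype.linearIndependent_iff`.  Let `∑ a i • f i = 0`, not all `a i = 0`.  Choose `i₀` with
`‖a i₀‖` maximal (`Finset.exists_max_image`), `a i₀ ≠ 0`; `b i := a i / a i₀` has norm `≤ 1`, so it is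
(the coercion of) an element of `ℤ_l`, `b i₀ = 1`, `∑ b i • f i = 0`.  Evaluate at `π⁻¹`:
`(b i • f i) π⁻¹ = f i (b i * π⁻¹) = k i • f i π⁻¹` with `k i = (b i).appr 1`
(`apply_padicInt_mul` with `r = 1`: `l ^ 1 • f i π⁻¹ = f i 1 = 0`).  By `hind`, `l ∣ k i₀`, but
`1 - k i₀ ∈ span {l}`: then `1 ∈ span {l}`, contradiction (`l` is not a unit of `ℤ_l`).] -/
theorem linearIndependent_of_mod {n : ℕ} (f : Fin n → VV J l) (h1 : ∀ i, f i 1 = 0)
    (hind : ∀ c : Fin n → ℕ, ∑ i, c i • f i ((l : ℚ_[l])⁻¹) = 0 → ∀ i, l ∣ c i) :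
    LinearIndependent ℚ_[l] f := by
  rw [Fintype.linearIndependent_iff]
  intro a ha
  by_contra hcon
  push Not at hcon
  obtain ⟨i₁, hi₁⟩ := hcon
  obtain ⟨i₀, -, hmax⟩ := Finset.exists_max_image Finset.univ (fun i => ‖a i‖) ⟨i₁, Finset.mem_univ _⟩
  have hl0 : (l : ℚ_[l]) ≠ 0 := by exact_mod_cast (Fact.out : l.Prime).ne_zero
  have hi₀ : a i₀ ≠ 0 := by
    intro h
    have h2 := hmax i₁ (Finset.mem_univ _)
    rw [h, norm_zero] at h2
    exact hi₁ (norm_le_zero_iff.1 h2)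
  have hn0 : 0 < ‖a i₀‖ := norm_pos_iff.2 hi₀
  -- the normalised coefficients
  have hb : ∀ i, ‖a i / a i₀‖ ≤ 1 := by
    intro i
    rw [norm_div, div_le_one hn0]
    exact hmax i (Finset.mem_univ _)
  set b : Fin n → ℤ_[l] := fun i => ⟨a i / a i₀, hb i⟩ with hbdef
  have hbc : ∀ i, ((b i : ℤ_[l]) : ℚ_[l]) = a i / a i₀ := fun i => rfl
  have hb0 : b i₀ = 1 := by
    apply Subtype.ext
    rw [hbc, div_self hi₀]
    rfl
  have hsum : ∑ i, ((b i : ℤ_[l]) : ℚ_[l]) • f i = 0 := by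
    have h2 : ∑ i, ((b i : ℤ_[l]) : ℚ_[l]) • f i = (a i₀)⁻¹ • ∑ i, a i • f i := by
      rw [Finset.smul_sum]
      refine Finset.sum_congr rfl fun i _ => ?_
      rw [smul_smul, hbc, div_eq_inv_mul]
    rw [h2, ha, smul_zero]
  -- evaluate at `π⁻¹`
  have hkill : ∀ i, l ^ 1 • f i ((l : ℚ_[l])⁻¹) = 0 := by
    intro i
    rw [← pow_mul_apply, pow_one, mul_inv_cancel₀ hl0, h1]
  have hval : ∀ i, (((b i : ℤ_[l]) : ℚ_[l]) • f i) ((l : ℚ_[l])⁻¹) =
      (b i).appr 1 • f i ((l : ℚ_[l])⁻¹) := by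
    intro i
    rw [smul_apply]
    exact apply_padicInt_mul (f i) _ (hkill i) (b i) _ (PadicInt.appr_spec 1 (b i))
  have hev : ∑ i, (b i).appr 1 • f i ((l : ℚ_[l])⁻¹) = 0 := by
    have h2 := congrArg (fun g : VV J l => g ((l : ℚ_[l])⁻¹)) hsum
    simp only [zero_apply] at h2
    rw [← h2]
    have h3 : ∀ (s : Finset (Fin n)) (g : Fin n → VV J l) (x : ℚ_[l]),
        (∑ i ∈ s, g i) x = ∑ i ∈ s, g i x := by
      intro s g x
      induction s using Finset.induction_on with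
      | empty => simp
      | insert i s hi ih => rw [Finset.sum_insert hi, Finset.sum_insert hi, add_apply, ih]
    rw [h3]
    exact Finset.sum_congr rfl fun i _ => (hval i).symm
  have hdvd := hind _ hev i₀
  have hspec := PadicInt.appr_spec 1 (b i₀)
  rw [hb0, pow_one, Ideal.mem_span_singleton] at hspec
  obtain ⟨c, hc⟩ := hdvd
  rw [hb0] at hc
  have h4 : (l : ℤ_[l]) ∣ 1 := by
    have h5 : (l : ℤ_[l]) ∣ (((1 : ℤ_[l]).appr 1 : ℕ) : ℤ_[l]) := by
      rw [hc]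
      push_cast
      exact Dvd.intro _ rfl
    have h6 := dvd_add hspec h5
    rwa [sub_add_cancel] at h6
  exact PadicInt.prime_p.not_isUnit (isUnit_of_dvd_one h4)

end Fermat.Agent.S15.V
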