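import Fermat.Agent.S15.Abs.V.Card

/-!
# S15 ABS-V, file `Map`: (V4) endomorphisms, isogenies
-/

set_option autoImplicit false

noncomputable section

namespace Fermat.Agent.S15.V

open Fermat.Agent.S15

variable {J : Type} [AddCommGroup J] {l : ℕ} [Fact l.Prime]

theorem ker_map {J' : Type} [AddCommGroup J'] (φ : J →+ J') :
    LinearMap.ker (map l φ) = sub l φ.ker := by
  ext f
  rw [LinearMap.mem_ker, mem_sub]
  constructor
  · intro h x
    rw [AddMonoidHom.mem_ker, ← map_apply, h, zero_apply]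
  · intro h
    ext x
    exact h x

theorem img_map {J' : Type} [AddCommGroup J'] (φ : J →+ J') (U : Submodule ℚ_[l] (VV J l)) :
    img (U.map (map l φ)) = (img U).map φ := by
  ext x
  constructor
  · rintro ⟨_, ⟨f, hf, rfl⟩, rfl⟩
    exact ⟨f 1, ⟨f, hf, rfl⟩, rfl⟩
  · rintro ⟨_, ⟨f, hf, rfl⟩, rfl⟩
    exact ⟨map l φ f, ⟨f, hf, rfl⟩, rfl⟩

theorem map_mem_sub {J' : Type} [AddCommGroup J'] (φ : J →+ J') {H : AddSubgroup J}
    {H' : AddSubgroup J'} (h : ∀ x ∈ H, φ x ∈ H') {f : VV J l} (hf : f ∈ sub l H) :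
    map l φ f ∈ sub l H' := fun x => h _ (hf x)

/-- [`LinearMap.ker_eq_bot`, `ker_map`, `sub_eq_bot_iff`.] -/
theorem map_injective_iff (hfin : {x : J | l • x = 0}.Finite) (φ : J →+ J) :
    Function.Injective (map l φ) ↔ ((φ.ker ⊓ torInf J l : AddSubgroup J) : Set J).Finite := by
  rw [← LinearMap.ker_eq_bot, ker_map, sub_eq_bot_iff hfin]

/-- [`finiteDimensional`, `LinearMap.injective_iff_surjective`.] -/
theorem map_bijective_iff (hfin : {x : J | l • x = 0}.Finite) (φ : J →+ J) :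
    Function.Bijective (map l φ) ↔ ((φ.ker ⊓ torInf J l : AddSubgroup J) : Set J).Finite := by
  have hfd := finiteDimensional (l := l) hfin
  rw [← map_injective_iff hfin]
  exact ⟨fun h => h.1, fun h => ⟨h, LinearMap.injective_iff_surjective.1 h⟩⟩

/-- an isogeny is onto.  [`x = f 1` (`img_top`), `f = map l φ g`, `z = g 1`.] -/
theorem exists_apply_eq_of_finite_ker (hfin : {x : J | l • x = 0}.Finite)
    (hdiv : ∀ x ∈ torInf J l, ∃ z : J, l • z = x) (φ : J →+ J)
    (h : ((φ.ker ⊓ torInf J l : AddSubgroup J) : Set J).Finite) :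
    ∀ x ∈ torInf J l, ∃ z ∈ torInf J l, φ z = x := by
  intro x hx
  rw [← img_top hdiv] at hx
  obtain ⟨f, -, rfl⟩ := hx
  obtain ⟨g, rfl⟩ := ((map_bijective_iff hfin φ).2 h).2 f
  exact ⟨g 1, apply_mem_torInf g 1, rfl⟩

/-- the same on a `φ`-stable divisible subgroup.  [`map l φ` restricts to an injective, hence
surjective endomorphism of the finite dimensional space `sub l H`; `img_sub_of_div`.] -/
theorem exists_apply_eq_of_finite_ker' (hfin : {x : J | l • x = 0}.Finite) {H : AddSubgroup J}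
    (hH : H ≤ torInf J l) (hdiv : ∀ x ∈ H, ∃ z ∈ H, l • z = x) (φ : J →+ J)
    (hφ : ∀ x ∈ H, φ x ∈ H) (h : ((φ.ker ⊓ H : AddSubgroup J) : Set J).Finite) :
    ∀ x ∈ H, ∃ z ∈ H, φ z = x := by
  have hfd := finiteDimensional (l := l) hfin
  have hst : ∀ f ∈ sub l H, map l φ f ∈ sub l H := fun f hf => map_mem_sub φ hφ hf
  have hinj : Function.Injective ((map l φ).restrict hst) := by
    rw [← LinearMap.ker_eq_bot, eq_bot_iff]
    intro f hf
    rw [LinearMap.mem_ker] at hf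
    have h1 : map l φ f.1 = 0 := congrArg Subtype.val hf
    have h2 : f.1 ∈ sub l (φ.ker ⊓ H) := by
      rw [sub_inf, ← ker_map]
      exact ⟨h1, f.2⟩
    have h3 : sub l (φ.ker ⊓ H) = ⊥ := by
      rw [sub_eq_bot_iff hfin]
      exact h.subset fun x hx => hx.1
    rw [h3, Submodule.mem_bot] at h2
    rw [Submodule.mem_bot]
    exact Subtype.ext h2
  have hsurj := LinearMap.injective_iff_surjective.1 hinj
  intro x hx
  rw [← img_sub_of_div hH hdiv] at hx
  obtain ⟨f, hf, rfl⟩ := hx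
  obtain ⟨g, hg⟩ := hsurj ⟨f, hf⟩
  refine ⟨g.1 1, g.2 1, ?_⟩
  have : map l φ g.1 = f := congrArg Subtype.val hg
  rw [ev_apply, ← this, map_apply]

/-- [`→`: `img_top`.] -/
theorem map_eq_zero_iff (hdiv : ∀ x ∈ torInf J l, ∃ z : J, l • z = x) (φ : J →+ J) :
    map l φ = 0 ↔ ∀ x ∈ torInf J l, φ x = 0 := by
  constructor
  · intro h x hx
    rw [← img_top hdiv] at hx
    obtain ⟨f, -, rfl⟩ := hx
    rw [ev_apply, ← map_apply, h]
    rfl
  · intro h
    ext f x
    exact h _ (apply_mem_torInf f x)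

/-- `map l φ` vanishes on `U` iff `φ` vanishes on `img U`. -/
theorem map_eq_zero_on_iff (φ : J →+ J) (U : Submodule ℚ_[l] (VV J l)) :
    (∀ f ∈ U, map l φ f = 0) ↔ ∀ x ∈ img U, φ x = 0 := by
  constructor
  · rintro h x ⟨f, hf, rfl⟩
    rw [ev_apply, ← map_apply, h f hf]
    rfl
  · intro h f hf
    ext x
    exact h _ (apply_mem_img hf x)

/-- `map l φ` maps `U` into `U'` iff `φ` maps `img U` into `img U'`.
[`←`: `map l φ f ∈ sub l (img U') = U'` (`sub_img`, `apply_mem_img`).] -/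
theorem map_mapsTo_iff (hfin : {x : J | l • x = 0}.Finite) (φ : J →+ J)
    (U U' : Submodule ℚ_[l] (VV J l)) :
    (∀ f ∈ U, map l φ f ∈ U') ↔ ∀ x ∈ img U, φ x ∈ img U' := by
  constructor
  · rintro h x ⟨f, hf, rfl⟩
    exact ⟨map l φ f, h f hf, rfl⟩
  · intro h f hf
    rw [← sub_img hfin U']
    intro x
    exact h _ (apply_mem_img hf x)

end Fermat.Agent.S15.V
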