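import Fermat.Agent.S15.Abs.V.Card

/-!
# S15 ABS-V, file `WishScalar`: (V7), (V9)
-/

set_option autoImplicit false

noncomputable section

namespace Fermat.Agent.S15.V

open Fermat.Agent.S15

variable {J : Type} [AddCommGroup J] {l : ℕ} [Fact l.Prime]

/-- (V7).  [`c - k = l ^ r * b` in `ℤ_l`.  `(π ^ r • f) 1 = l ^ r • f 1 = s 1` with `s ∈ S`;
`h := π ^ r • f - s`, `h 1 = 0`.  `(c • f) 1 - k • f 1 = f ((c - k) * 1) = (b • (π ^ r • f)) 1
= (b • s) 1 + h (b * 1)`, and `h (b * 1) = m • h 1 = 0` (`exists_apply_padicInt_mul`), `b • s ∈ S`.] -/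
theorem smul_ev_sub_mem (S : Submodule ℚ_[l] (VV J l)) (c : ℤ_[l]) (k r : ℕ)
    (h : c - (k : ℤ_[l]) ∈ Ideal.span {(l : ℤ_[l]) ^ r}) (f : VV J l)
    (hf : l ^ r • f 1 ∈ img S) : ((c : ℚ_[l]) • f) 1 - k • f 1 ∈ img S := by
  obtain ⟨b, hb⟩ := Ideal.mem_span_singleton.1 h
  obtain ⟨s, hs, hs1⟩ := hf
  rw [ev_apply] at hs1
  have hc : (c : ℚ_[l]) = (k : ℚ_[l]) + (b : ℚ_[l]) * (l : ℚ_[l]) ^ r := by
    have : c = (k : ℤ_[l]) + (l : ℤ_[l]) ^ r * b := by rw [← hb]; ring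
    calc (c : ℚ_[l]) = (((k : ℤ_[l]) + (l : ℤ_[l]) ^ r * b : ℤ_[l]) : ℚ_[l]) := by rw [← this]
      _ = _ := by push_cast; ring
  -- `h' := π ^ r • f - s` vanishes at `1`
  have h1 : ((l : ℚ_[l]) ^ r • f - s) 1 = 0 := by
    rw [sub_apply, smul_apply, pow_mul_apply, hs1, sub_self]
  obtain ⟨m, hm⟩ := exists_apply_padicInt_mul ((l : ℚ_[l]) ^ r • f - s) 1 b
  rw [h1, smul_zero, sub_apply, smul_apply, sub_eq_zero] at hm
  have h2 : ((c : ℚ_[l]) • f) 1 - k • f 1 = ((b : ℚ_[l]) • s) 1 := by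
    rw [smul_apply, hc, add_mul, map_add, natCast_mul_apply, add_sub_cancel_left, smul_apply, ← hm]
    congr 1
    ring
  rw [h2]
  exact ⟨(b : ℚ_[l]) • s, S.smul_mem _ hs, rfl⟩

/-- (V9) -/
theorem exists_pow_smul_mem_img_sub (hfin : {x : J | l • x = 0}.Finite) (H : AddSubgroup J) :
    ∃ c : ℕ, ∀ x ∈ H, x ∈ torInf J l → l ^ c • x ∈ img (sub l H) := by
  rw [img_sub hfin H]
  exact exists_pow_smul_mem_dv hfin H

/-- membership in a subspace can be tested on values. -/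
theorem mem_iff_forall_apply_mem (hfin : {x : J | l • x = 0}.Finite)
    (S : Submodule ℚ_[l] (VV J l)) (f : VV J l) : f ∈ S ↔ ∀ x, f x ∈ img S := by
  conv_lhs => rw [← sub_img hfin S]
  exact Iff.rfl

/-- [`mem_iff_forall_apply_mem`, `mem_sub_of_inv_pow`.] -/
theorem mem_iff_forall_inv_pow (hfin : {x : J | l • x = 0}.Finite)
    (S : Submodule ℚ_[l] (VV J l)) (f : VV J l) :
    f ∈ S ↔ ∀ r : ℕ, f (((l : ℚ_[l]) ^ r)⁻¹) ∈ img S := by
  constructor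
  · intro h r
    exact (mem_iff_forall_apply_mem hfin S f).1 h _
  · intro h
    rw [← sub_img hfin S]
    exact mem_sub_of_inv_pow h

end Fermat.Agent.S15.V
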